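import Mathlib
import Fermat.Agent.FF.Spec
import Fermat.Agent.G.Unr.Main

/-!
# PROGRAM FF, part D (architect helper2): S32 from the global orders of S19.  INTERFACE FILE

S32: for a Hecke–Galois datum `H` of level `N` (`p ∤ N`, `p ∈ S`, primes of `N` in `S`) and every
ideal `I` of `T` of finite index, `V/IV` has a finite flat model over `ℤ_(p)`.

ROUTE (no Weil pairing, no Petersson product, no reducedness of the Hecke algebra; everything is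
trace based like S31).  `G := Gal(ℚ̄/ℚ)`, `Y_m := J₀(N)[p^m]`, `t := tr ρ`, `𝔪 := 𝔪_T`.

* (ORD) `Y_m` carries a global order (`fftp_modOrd`, the S19 chain), and global orders pass to
  finite products, stable subgroups and equivariant quotients (`FfProdSpec`, `FfSubSpec`,
  `FfQuotSpec` of `FF/Spec.lean`).
* (ALG) `Ff32SubquotSpec`: if every `x ∈ ℤ[G]` killing `Y` kills `V̄`, then `V̄` is an equivariant
  quotient of a stable subgroup of `Y^(V̄ × Y)`; hence a global order on `Y` gives one on `V̄`.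
* (STAR) `Ff32StarSpec`: for every `n` there is `m` such that every `x = ∑ a_g g ∈ ℤ[G]` killing
  `Y_m` maps `V` into `𝔪^n V`.  Proof from the four leaves below:
  - `Ff32Hk N S x e j` (inductive predicate): `(x, e, j)` is a *Hecke triple*: an element of the
    ring generated by the `(T_ℓ, tr_ℓ, T_ℓ^J)`, `ℓ ∉ S`, acting on `S₂(Γ₀(N))`, `Γ₀(N)^ab`, `J₀(N)`.
  - (LAT) `Ff32LatticeSpec`: if `j` kills `Y_m` then `c₁ x ∈ p^(m-c) 𝕋` (`Θ` injective +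
    `gun_lattice`).
  - (FROB) `Ff32FrobSpec`: every `σ ∈ G` is approximated by a Hecke triple: `π x ≡ t σ mod 𝔪^n`
    and `j = σ + c σ⁻¹` on `Y_m`, `σ ζ = ζ^c` (weak Chebotarev + Eichler–Shimura + Lucas).
  - (TR) trace criterion `Ff32TraceSpec` and (NAC) `Ff32NacSpec`: `t(g₁ g₂ g₃) - t(g₂ g₁ g₃)` is a
    unit for suitable `g_i` (residual absolute irreducibility).
  Assembly: `X_h := ∑ a_g w_{g h}` acts on `Y_m` as `x h + c(h) h⁻¹ x^*`, `x^* := ∑ a_g c(g) g⁻¹`;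
  `x Y_m = 0`, so `X_h = c(h) h⁻¹ x^*`.  `U := x^* Y_m` is `G`-stable and `G` acts COMMUTATIVELY on
  it (`σ h⁻¹ x^* = c(h)⁻¹ σ X_h = c(h)⁻¹ X_h σ = h⁻¹ x^* σ = h⁻¹ σ x^*`: Hecke operators commute with
  `G`).  Hence `s := w_{g₁g₂g₃} - w_{g₂g₁g₃}` kills `U`, `s X_h` kills `Y_m`, (LAT) gives
  `π(s) π(X_h) ∈ 𝔪^n`, `π(s)` is a unit by (NAC), so `∑ a_g t(g h) ∈ 𝔪^n` for all `h`, and (TR)
  finishes.
-/

set_option autoImplicit false

noncomputable section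

namespace Fermat.Agent.FF

open CongruenceSubgroup ModularCurve Fermat.Agent.S16LB Fermat.Agent.G

/-- **Hecke triples**: the ring generated by the `(T_ℓ, tr_ℓ, T_ℓ^J)`, `ℓ ∉ S` prime, `ℓ ∤ N`, acting
simultaneously on `S₂(Γ₀(N))`, on `Γ₀(N)^ab` (in the opposite order) and on `J₀(N)(ℚ̄)`. -/
inductive Ff32Hk (N : ℕ) [NeZero N] (S : Set ℕ) :
    Module.End ℂ (CuspForm (Gamma0 N) 2) → AddMonoid.End (s16lbAb N) →
      Module.End ℤ (JZero N) → Prop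
  | T {ℓ : ℕ} (hℓ : ℓ.Prime) (hℓN : ¬ ℓ ∣ N) (hℓS : ℓ ∉ S) :
      Ff32Hk N S (CuspForm.heckeTLin 2 hℓ hℓN) (gprT N ℓ) (heckeOperatorBar N ⟨ℓ, hℓ⟩)
  | one : Ff32Hk N S 1 1 1
  | sub {x x' : Module.End ℂ (CuspForm (Gamma0 N) 2)} {e e' : AddMonoid.End (s16lbAb N)}
      {j j' : Module.End ℤ (JZero N)} :
      Ff32Hk N S x e j → Ff32Hk N S x' e' j' → Ff32Hk N S (x - x') (e - e') (j - j')
  | mul {x x' : Module.End ℂ (CuspForm (Gamma0 N) 2)} {e e' : AddMonoid.End (s16lbAb N)}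
      {j j' : Module.End ℤ (JZero N)} :
      Ff32Hk N S x e j → Ff32Hk N S x' e' j' → Ff32Hk N S (x * x') (e' * e) (j * j')

/-- **(LAT)** a Hecke triple whose `J`-component kills `J₀(N)[p^m]` has its form component in
`p^(m-c) 𝕋` up to the prime-to-`p` factor `c₁`. -/
def Ff32LatticeSpec (N : ℕ) [NeZero N] (S : Set ℕ) (p : ℕ) : Prop :=
  ∃ c c₁ : ℕ, c₁.Coprime p ∧
    ∀ (m : ℕ) (x : Module.End ℂ (CuspForm (Gamma0 N) 2)) (e : AddMonoid.End (s16lbAb N))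
      (j : Module.End ℤ (JZero N)), Ff32Hk N S x e j →
      (∀ y : JZero N, p ^ m • y = 0 → j y = 0) →
      ∃ w : CuspForm.heckeAlgebra N 2 S,
        c₁ • x = p ^ (m - c) • (w : Module.End ℂ (CuspForm (Gamma0 N) 2))

/-- **(TR)** the trace criterion: if `∑ a_g t(g h) ∈ 𝔞` for all `h` then `∑ a_g ρ(g)` maps `V` into
`𝔞 V`. -/
def Ff32TraceSpec {T : Type} [CommRing T] [IsLocalRing T] (ρ : GaloisRepAdic T) : Prop :=
  ∀ (𝔞 : Ideal T) (a : FfGal →₀ ℤ),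
    (∀ h : FfGal, (a.sum fun g k => k • LinearMap.trace T ρ.V (ρ.ρ (g * h))) ∈ 𝔞) →
    ∀ v : ρ.V, (a.sum fun g k => k • ρ.ρ g v) ∈ 𝔞 • (⊤ : Submodule T ρ.V)

/-- **(NAC)** no abelian constituent: some `t(g₁ g₂ g₃) - t(g₂ g₁ g₃)` is a unit. -/
def Ff32NacSpec {T : Type} [CommRing T] [IsLocalRing T] (ρ : GaloisRepAdic T) : Prop :=
  ∃ g₁ g₂ g₃ : FfGal, IsUnit (LinearMap.trace T ρ.V (ρ.ρ (g₁ * g₂ * g₃))
    - LinearMap.trace T ρ.V (ρ.ρ (g₂ * g₁ * g₃)))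

/-- **(ALG)** annihilators in `ℤ[G]` ⟹ subquotient of a power ⟹ transport of the global order. -/
def Ff32SubquotSpec (ℓ : ℕ) : Prop :=
  ∀ (Y V : Type) [AddCommGroup Y] [AddCommGroup V] [Finite Y] [Finite V]
    (actY : FfGal → Y → Y) (actV : FfGal → V → V), FfAct Y actY → FfAct V actV →
    (∀ a : FfGal →₀ ℤ, (∀ y : Y, (a.sum fun g k => k • actY g y) = 0) →
      ∀ v : V, (a.sum fun g k => k • actV g v) = 0) →
    FfModOrd ℓ Y actY → FfModOrd ℓ V actV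

section Datum

variable {p : ℕ} {N : ℕ} [NeZero N] {S : Finset ℕ}
  {𝒪 : Type} [CommRing 𝒪] [IsDomain 𝒪] [IsDiscreteValuationRing 𝒪]
  [IsAdicComplete (IsLocalRing.maximalIdeal 𝒪) 𝒪]
  {θ : CuspForm.heckeAlgebra N 2 (↑S : Set ℕ) →+* IsLocalRing.ResidueField 𝒪}
  {T : Type} [CommRing T] [IsLocalRing T] [IsNoetherianRing T]
  [IsAdicComplete (IsLocalRing.maximalIdeal T) T] [Algebra 𝒪 T] [IsLocalHom (algebraMap 𝒪 T)]
  [Module.Finite 𝒪 T] [Module.Free 𝒪 T]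

/-- **(FROB)** Frobenius approximation: every `σ` is matched by a Hecke triple, for the trace modulo
`𝔪^n` and for the action on `J₀(N)[p^m]`. -/
def Ff32FrobSpec (p : ℕ) (H : CuspForm.HeckeGaloisRepDatum N (↑S : Set ℕ) 𝒪 θ T) : Prop :=
  ∀ (m n : ℕ) (ζ : FfQb), IsPrimitiveRoot ζ (p ^ m) → ∀ σ : FfGal,
    ∃ (x : Module.End ℂ (CuspForm (Gamma0 N) 2)) (e : AddMonoid.End (s16lbAb N))
      (j : Module.End ℤ (JZero N)) (_ : Ff32Hk N (↑S : Set ℕ) x e j)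
      (hx : x ∈ CuspForm.heckeAlgebra N 2 (↑S : Set ℕ)) (c : ℕ),
      H.π ⟨x, hx⟩ - LinearMap.trace T H.ρ.V (H.ρ.ρ σ) ∈ IsLocalRing.maximalIdeal T ^ n ∧
      σ ζ = ζ ^ c ∧ ∀ y : JZero N, p ^ m • y = 0 → j y = σ • y + c • (σ⁻¹ • y)

/-- **(STAR)** for every `n` there is `m` such that every element of `ℤ[G]` killing `J₀(N)[p^m]`
maps `V` into `𝔪^n V`. -/
def Ff32StarSpec (p : ℕ) (H : CuspForm.HeckeGaloisRepDatum N (↑S : Set ℕ) 𝒪 θ T) : Prop :=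
  ∀ n : ℕ, ∃ m : ℕ, ∀ a : FfGal →₀ ℤ,
    (∀ y : JZero N, p ^ m • y = 0 → (a.sum fun g k => k • (g • y)) = 0) →
    ∀ v : H.ρ.V, (a.sum fun g k => k • H.ρ.ρ g v)
      ∈ (IsLocalRing.maximalIdeal T ^ n) • (⊤ : Submodule T H.ρ.V)

end Datum

end Fermat.Agent.FF
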