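import Mathlib
import Fermat.Agent.FF.S32.Spec
import Fermat.Agent.G.Unr.Main
import Fermat.Agent.G.Adic.FinTors

/-!
# PROGRAM FF, part D (S32 from S19), leaf D3 (FROB): Frobenius approximation by Hecke triples
(prefix `ff32f`, owner helper3; architect helper2, interface `FF/S32/Spec.lean`)

`ff32f_main : Ff32FrobSpec p H`: for all `m n`, a primitive `p^m`-th root of unity `ζ` and `σ ∈ G_ℚ`
there is a Hecke triple `(x, e, j)` and `c : ℕ` with `π x ≡ tr ρ(σ) mod 𝔪^n`, `σ ζ = ζ^c` and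
`j = σ + c σ⁻¹` on `J₀(N)[p^m]`.

Proof: `E` := a finite normal level containing a field of definition of `Y_m = J₀(N)[p^m]`
(`gad_finite_torsion`, `gop_finite_fixing_normal`), `ζ`, and the level-`n` field of `ρ`
(`isAdicContinuous`).  Weak Frobenius density (`gunm_exists_frob`) gives `ℓ ∉ S`, a Frobenius lift
`φ` at `ℓ` and `b` with `u := (φ^b)⁻¹ σ ∈ G_E`.  The triple is the Lucas element `V_b` of the
`T_ℓ`-triple, `c := ℓ^b`: `π x = tr ρ(φ^b)` (`gunm_trace_frob_pow`) `≡ tr ρ(σ)` (`gunm_trace_congr`),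
`σ ζ = φ^b ζ = ζ^(ℓ^b)` (`gunh_frob_pow`), and on `Y_m`, `V_b(T_ℓ) = φ^b + ℓ^b φ^(-b)`
(`gun_luc_torsion`) `= σ + c σ⁻¹` since `u, u⁻¹` fix `Y_m` pointwise.
-/

set_option autoImplicit false
set_option linter.unusedSectionVars false
set_option linter.unusedVariables false
set_option linter.style.haveILetI false

noncomputable section

namespace Fermat.Agent.FF

open CongruenceSubgroup ModularCurve AlgebraicCurve Fermat.Agent.S16LB Fermat.Agent.G Polynomial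

local notation "Qb" => AlgebraicClosure ℚ
local notation "GQ" => (AlgebraicClosure ℚ ≃ₐ[ℚ] AlgebraicClosure ℚ)

/-! ### closure of Hecke triples under the Lucas sequence -/

section Closure

variable {N : ℕ} [NeZero N] {S : Set ℕ}

theorem ff32f_zero : Ff32Hk N S 0 0 0 := by
  have h := Ff32Hk.sub (Ff32Hk.one (N := N) (S := S)) Ff32Hk.one
  rwa [sub_self, sub_self, sub_self] at h

theorem ff32f_neg {x : Module.End ℂ (CuspForm (Gamma0 N) 2)} {e : AddMonoid.End (s16lbAb N)}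
    {j : Module.End ℤ (JZero N)} (h : Ff32Hk N S x e j) : Ff32Hk N S (-x) (-e) (-j) := by
  have h' := Ff32Hk.sub ff32f_zero h
  rwa [zero_sub, zero_sub, zero_sub] at h'

theorem ff32f_add {x x' : Module.End ℂ (CuspForm (Gamma0 N) 2)} {e e' : AddMonoid.End (s16lbAb N)}
    {j j' : Module.End ℤ (JZero N)} (h : Ff32Hk N S x e j) (h' : Ff32Hk N S x' e' j') :
    Ff32Hk N S (x + x') (e + e') (j + j') := by
  have h'' := Ff32Hk.sub h (ff32f_neg h')
  rwa [sub_neg_eq_add, sub_neg_eq_add, sub_neg_eq_add] at h''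

theorem ff32f_nsmul {x : Module.End ℂ (CuspForm (Gamma0 N) 2)} {e : AddMonoid.End (s16lbAb N)}
    {j : Module.End ℤ (JZero N)} (h : Ff32Hk N S x e j) (d : ℕ) :
    Ff32Hk N S (d • x) (d • e) (d • j) := by
  induction d with
  | zero => simpa using ff32f_zero (N := N) (S := S)
  | succ d ih =>
    rw [succ_nsmul, succ_nsmul, succ_nsmul]
    exact ff32f_add ih h

theorem ff32f_zsmul {x : Module.End ℂ (CuspForm (Gamma0 N) 2)} {e : AddMonoid.End (s16lbAb N)}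
    {j : Module.End ℤ (JZero N)} (h : Ff32Hk N S x e j) (d : ℤ) :
    Ff32Hk N S (d • x) (d • e) (d • j) := by
  obtain ⟨k, rfl | rfl⟩ := d.eq_nat_or_neg
  · rw [natCast_zsmul, natCast_zsmul, natCast_zsmul]
    exact ff32f_nsmul h k
  · rw [neg_smul, neg_smul, neg_smul, natCast_zsmul, natCast_zsmul, natCast_zsmul]
    exact ff32f_neg (ff32f_nsmul h k)

theorem ff32f_two : Ff32Hk N S 2 2 2 := by
  have h := ff32f_add (Ff32Hk.one (N := N) (S := S)) Ff32Hk.one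
  rwa [one_add_one_eq_two, one_add_one_eq_two, one_add_one_eq_two] at h

/-- Hecke triples are closed under the Lucas sequence. -/
theorem ff32f_luc {x : Module.End ℂ (CuspForm (Gamma0 N) 2)} {e : AddMonoid.End (s16lbAb N)}
    {j : Module.End ℤ (JZero N)} (h : Ff32Hk N S x e j) (d : ℤ) (b : ℕ) :
    Ff32Hk N S (gunLuc x d b) (gunLuc e d b) (gunLuc j d b) := by
  induction b using Nat.strong_induction_on with
  | _ b ih =>
    match b with
    | 0 => exact ff32f_two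
    | 1 => exact h
    | (b + 2) =>
      rw [gunLuc_succ_succ, gunLuc_succ_succ, gunLuc_succ_succ, (gunLuc_commute e d (b + 1)).eq]
      exact Ff32Hk.sub (Ff32Hk.mul h (ih (b + 1) (by omega))) (ff32f_zsmul (ih b (by omega)) d)

end Closure

/-! ### the Frobenius approximation -/

section Main

variable {p : ℕ} {N : ℕ} [NeZero N] {S : Finset ℕ}
  {𝒪 : Type} [CommRing 𝒪] [IsDomain 𝒪] [IsDiscreteValuationRing 𝒪]
  [IsAdicComplete (IsLocalRing.maximalIdeal 𝒪) 𝒪]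
  {θ : CuspForm.heckeAlgebra N 2 (↑S : Set ℕ) →+* IsLocalRing.ResidueField 𝒪}
  {T : Type} [CommRing T] [IsLocalRing T] [IsNoetherianRing T]
  [IsAdicComplete (IsLocalRing.maximalIdeal T) T] [Algebra 𝒪 T] [IsLocalHom (algebraMap 𝒪 T)]
  [Module.Finite 𝒪 T] [Module.Free 𝒪 T]

/-- the Galois action commutes with multiplication by natural numbers -/
theorem ff32f_smul_nsmul (N : ℕ) (σ : GQ) (k : ℕ) (x : JZero N) : σ • (k • x) = k • (σ • x) :=
  map_nsmul (DistribSMul.toAddMonoidHom (JZero N) σ) k x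

/-- **(FROB)** every `σ ∈ G_ℚ` is approximated by a Hecke triple. -/
theorem ff32f_main (hp : p.Prime) (hp𝒪 : (p : 𝒪) ∈ IsLocalRing.maximalIdeal 𝒪) (hpS : p ∈ S)
    (hNS : ∀ q : ℕ, q.Prime → q ∣ N → q ∈ S)
    (H : CuspForm.HeckeGaloisRepDatum N (↑S : Set ℕ) 𝒪 θ T) : Ff32FrobSpec p H := by
  classical
  intro m n ζ hζ σ
  have hcl : IsAlgClosure ℚ Qb := AlgebraicClosure.instIsAlgClosure ℚ
  have halg : Algebra.IsAlgebraic ℚ Qb := AlgebraicClosure.isAlgebraic ℚ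
  have hnormQb : Normal ℚ Qb := IsAlgClosure.normal ℚ Qb
  -- the finite normal level `E`
  have hpm : 0 < p ^ m := pow_pos hp.pos m
  have hfinY : {y : JZero N | p ^ m • y = 0}.Finite := gad_finite_torsion N (p ^ m) hpm
  obtain ⟨E₁, hE₁fin, hE₁norm, hE₁⟩ := gop_finite_fixing_normal N _ hfinY
  obtain ⟨L, hLfd, hL⟩ := H.ρ.isAdicContinuous n
  haveI : FiniteDimensional ℚ (IntermediateField.adjoin ℚ {ζ}) :=
    IntermediateField.adjoin.finiteDimensional (Algebra.IsIntegral.isIntegral ζ)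
  haveI : FiniteDimensional ℚ E₁ := hE₁fin
  haveI : FiniteDimensional ℚ L := hLfd
  haveI hE₂fin : FiniteDimensional ℚ (E₁ ⊔ IntermediateField.adjoin ℚ {ζ} :
      IntermediateField ℚ Qb) := IntermediateField.finiteDimensional_sup E₁ _
  have hE₀fin : FiniteDimensional ℚ ((E₁ ⊔ IntermediateField.adjoin ℚ {ζ}) ⊔ L :
      IntermediateField ℚ Qb) := IntermediateField.finiteDimensional_sup _ L
  set E : IntermediateField ℚ Qb := IntermediateField.normalClosure ℚ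
    ((E₁ ⊔ IntermediateField.adjoin ℚ {ζ}) ⊔ L : IntermediateField ℚ Qb) Qb with hEdef
  have hEfd : FiniteDimensional ℚ E := normalClosure.is_finiteDimensional ℚ _ Qb
  have hEn : Normal ℚ E := normalClosure.normal ℚ _ Qb
  have hE₀le : ((E₁ ⊔ IntermediateField.adjoin ℚ {ζ}) ⊔ L : IntermediateField ℚ Qb) ≤ E :=
    IntermediateField.le_normalClosure _
  have hE₁E : E₁ ≤ E := le_trans (le_trans le_sup_left le_sup_left) hE₀le
  have hζE : ζ ∈ E := hE₀le ((le_sup_left : _ ≤ (E₁ ⊔ IntermediateField.adjoin ℚ {ζ}) ⊔ L)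
    ((le_sup_right : _ ≤ E₁ ⊔ IntermediateField.adjoin ℚ {ζ})
      (IntermediateField.mem_adjoin_simple_self ℚ ζ)))
  have hLE : L ≤ E := le_trans le_sup_right hE₀le
  have hfixY : ∀ u ∈ E.fixingSubgroup, ∀ y : JZero N, p ^ m • y = 0 → u • y = y := fun u hu y hy =>
    hE₁ u (gop_mem_fixing_of_le hE₁E u hu) y hy
  have hfixζ : ∀ u ∈ E.fixingSubgroup, u ζ = ζ := fun u hu =>
    (IntermediateField.mem_fixingSubgroup_iff E u).mp hu ζ hζE
  have hfixL : ∀ u : GQ, u ∈ E.fixingSubgroup → ∀ x ∈ L, u x = x := by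
    intro u hu x hx
    rw [IntermediateField.mem_fixingSubgroup_iff] at hu
    exact hu x (hLE hx)
  -- weak Frobenius density
  obtain ⟨ℓ, hℓ, hℓS, A, hA, φ, hφ, b, hb⟩ := gunm_exists_frob E hEn σ S
  have hℓN : ¬ ℓ ∣ N := fun hd => hℓS (hNS ℓ hℓ hd)
  have hℓp : ℓ ≠ p := fun e => hℓS (e ▸ hpS)
  have hℓS' : ℓ ∉ (↑S : Set ℕ) := fun hh => hℓS (Finset.mem_coe.mp hh)
  have hℓpm : ¬ ℓ ∣ p ^ m := fun hd =>
    hℓp ((Nat.prime_dvd_prime_iff_eq hℓ hp).mp (hℓ.dvd_of_dvd_pow hd))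
  -- the element of `G_E`
  obtain ⟨u, hudef⟩ : ∃ u : GQ, u = (φ ^ b)⁻¹ * σ := ⟨_, rfl⟩
  rw [← hudef] at hb
  have hσ : σ = φ ^ b * u := by rw [hudef]; group
  have hσi : σ⁻¹ = u⁻¹ * (φ ^ b)⁻¹ := by rw [hudef]; group
  -- the triple
  have htriple : Ff32Hk N (↑S : Set ℕ)
      (gunLuc (CuspForm.heckeTLin 2 hℓ hℓN) (ℓ : ℤ) b)
      (gunLuc (R := AddMonoid.End (s16lbAb N)) (gprT N ℓ) (ℓ : ℤ) b)
      (gunLuc (R := Module.End ℤ (JZero N)) (heckeOperatorBar N ⟨ℓ, hℓ⟩) (ℓ : ℤ) b) :=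
    ff32f_luc (Ff32Hk.T hℓ hℓN hℓS') (ℓ : ℤ) b
  have hval : ((gunLuc (CuspForm.heckeAlgebra.T hℓ hℓN hℓS') (ℓ : ℤ) b :
        CuspForm.heckeAlgebra N 2 (↑S : Set ℕ)) : Module.End ℂ (CuspForm (Gamma0 N) 2))
      = gunLuc (CuspForm.heckeTLin 2 hℓ hℓN) (ℓ : ℤ) b := by
    have := gunLuc_map (CuspForm.heckeAlgebra N 2 (↑S : Set ℕ)).val.toRingHom
      (CuspForm.heckeAlgebra.T hℓ hℓN hℓS') (ℓ : ℤ) b
    rw [← CuspForm.heckeAlgebra.coe_T hℓ hℓN hℓS']
    exact this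
  have hx : gunLuc (CuspForm.heckeTLin 2 hℓ hℓN) (ℓ : ℤ) b ∈
      CuspForm.heckeAlgebra N 2 (↑S : Set ℕ) := by
    rw [← hval]
    exact Subtype.mem _
  refine ⟨_, _, _, htriple, hx, ℓ ^ b, ?_, ?_, ?_⟩
  · -- the trace
    have hsub : (⟨gunLuc (CuspForm.heckeTLin 2 hℓ hℓN) (ℓ : ℤ) b, hx⟩ :
        CuspForm.heckeAlgebra N 2 (↑S : Set ℕ)) =
          gunLuc (CuspForm.heckeAlgebra.T hℓ hℓN hℓS') (ℓ : ℤ) b := Subtype.ext hval.symm
    rw [hsub, ← gunm_trace_frob_pow H hℓ hℓN hℓS' A hA φ hφ b]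
    have key := gunm_trace_congr H.ρ n L hL σ (φ ^ b) (by rw [← hudef]; exact hfixL u hb)
    have hneg := Ideal.neg_mem_iff _ |>.mpr key
    rwa [neg_sub] at hneg
  · -- the root of unity
    have hζ1 : ζ ^ (p ^ m) = 1 := hζ.pow_eq_one
    rw [hσ, AlgEquiv.mul_apply, hfixζ u hb]
    exact gunh_frob_pow hℓ hℓpm A hA φ hφ ζ hζ1 b
  · -- the torsion
    intro y hy
    have hy1 : ∃ k : ℕ, p ^ k • y = 0 := ⟨m, hy⟩
    rw [gun_luc_torsion N p hp ℓ hℓ hℓN hℓp A hA φ hφ b y hy1]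
    have h1 : σ • y = φ ^ b • y := by
      rw [hσ, mul_smul, hfixY u hb y hy]
    have hy' : p ^ m • ((φ ^ b)⁻¹ • y) = 0 := by
      rw [← ff32f_smul_nsmul, hy]
      exact smul_zero (A := JZero N) (φ ^ b)⁻¹
    have h2 : σ⁻¹ • y = (φ ^ b)⁻¹ • y := by
      rw [hσi, mul_smul, hfixY u⁻¹ (E.fixingSubgroup.inv_mem hb) _ hy']
    rw [h1, h2]

end Main

end Fermat.Agent.FF
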