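import Mathlib
import Fermat.Agent.FF.S32.Spec
import Fermat.Agent.G.Unr.Corr
import Fermat.Agent.G.Unr.Theta
import Fermat.Agent.G.Unr.Lattice
import Fermat.Agent.G.Per.Stable
import Fermat.Agent.G.Asm.HeckeGalois

/-!
# PROGRAM FF, part D, leaf D2: the algebra of Hecke triples `Ff32Hk` and (LAT)

* closure of `Ff32Hk N S` under `0`, `-`, `+`, `ℕ`- and `ℤ`-multiples, integer constants, finite sums,
  powers and the Lucas sequence (`ff32h_luc`; the middle component is in the OPPOSITE order, harmless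
  for Lucas polynomials because they are polynomials in one element);
* the three projections of a Hecke triple: `ff32h_mem` (the form component lies in the Hecke
  algebra), `ff32h_corr` (form and homology components correspond under the period pairing),
  `ff32h_galois` (the `J`-component commutes with Galois), `ff32h_theta` (the `Θ` of `gun_theta`
  intertwines the homology component with the `J`-component);
* `ff32h_lattice` : (LAT) `Ff32LatticeSpec N S p`.
-/

set_option autoImplicit false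

noncomputable section

namespace Fermat.Agent.FF

open CongruenceSubgroup ModularCurve Fermat.Agent.S16LB Fermat.Agent.G

section Closure

variable {N : ℕ} [NeZero N] {S : Set ℕ}
  {x x' : Module.End ℂ (CuspForm (Gamma0 N) 2)} {e e' : AddMonoid.End (s16lbAb N)}
  {j j' : Module.End ℤ (JZero N)}

/-- transport of a Hecke triple along equalities of its components. -/
theorem ff32h_congr (h : Ff32Hk N S x e j) (hx : x = x') (he : e = e') (hj : j = j') :
    Ff32Hk N S x' e' j' := by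
  subst hx he hj
  exact h

theorem ff32h_zero : Ff32Hk N S 0 0 0 :=
  ff32h_congr (Ff32Hk.sub (Ff32Hk.one (N := N) (S := S)) Ff32Hk.one)
    (sub_self _) (sub_self _) (sub_self _)

theorem ff32h_neg (h : Ff32Hk N S x e j) : Ff32Hk N S (-x) (-e) (-j) :=
  ff32h_congr (Ff32Hk.sub ff32h_zero h) (zero_sub _) (zero_sub _) (zero_sub _)

theorem ff32h_add (h : Ff32Hk N S x e j) (h' : Ff32Hk N S x' e' j') :
    Ff32Hk N S (x + x') (e + e') (j + j') :=
  ff32h_congr (Ff32Hk.sub h (ff32h_neg h')) (sub_neg_eq_add _ _) (sub_neg_eq_add _ _)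
    (sub_neg_eq_add _ _)

theorem ff32h_nsmul (h : Ff32Hk N S x e j) (k : ℕ) : Ff32Hk N S (k • x) (k • e) (k • j) := by
  induction k with
  | zero => exact ff32h_congr ff32h_zero (zero_nsmul _).symm (zero_nsmul _).symm (zero_nsmul _).symm
  | succ k ih =>
    exact ff32h_congr (ff32h_add ih h) (succ_nsmul _ _).symm (succ_nsmul _ _).symm
      (succ_nsmul _ _).symm

theorem ff32h_zsmul (h : Ff32Hk N S x e j) (k : ℤ) : Ff32Hk N S (k • x) (k • e) (k • j) := by
  obtain ⟨n, rfl | rfl⟩ := k.eq_nat_or_neg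
  · exact ff32h_congr (ff32h_nsmul h n) (natCast_zsmul _ _).symm (natCast_zsmul _ _).symm
      (natCast_zsmul _ _).symm
  · exact ff32h_congr (ff32h_neg (ff32h_nsmul h n))
      (by rw [neg_zsmul, natCast_zsmul]) (by rw [neg_zsmul, natCast_zsmul])
      (by rw [neg_zsmul, natCast_zsmul])

theorem ff32h_natCast (k : ℕ) :
    Ff32Hk N S (k : Module.End ℂ (CuspForm (Gamma0 N) 2)) (k : AddMonoid.End (s16lbAb N))
      (k : Module.End ℤ (JZero N)) :=
  ff32h_congr (ff32h_nsmul Ff32Hk.one k) (nsmul_one _) (nsmul_one _) (nsmul_one _)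

theorem ff32h_intCast (k : ℤ) :
    Ff32Hk N S (k : Module.End ℂ (CuspForm (Gamma0 N) 2)) (k : AddMonoid.End (s16lbAb N))
      (k : Module.End ℤ (JZero N)) :=
  ff32h_congr (ff32h_zsmul Ff32Hk.one k) (zsmul_one _) (zsmul_one _) (zsmul_one _)

theorem ff32h_two : Ff32Hk N S 2 2 2 :=
  ff32h_congr (ff32h_natCast 2) Nat.cast_ofNat Nat.cast_ofNat Nat.cast_ofNat

/-- finite sums of Hecke triples (the empty sum included). -/
theorem ff32h_sum {ι : Type*} (s : Finset ι) (X : ι → Module.End ℂ (CuspForm (Gamma0 N) 2))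
    (E : ι → AddMonoid.End (s16lbAb N)) (J : ι → Module.End ℤ (JZero N))
    (h : ∀ i ∈ s, Ff32Hk N S (X i) (E i) (J i)) :
    Ff32Hk N S (∑ i ∈ s, X i) (∑ i ∈ s, E i) (∑ i ∈ s, J i) := by
  classical
  induction s using Finset.induction_on with
  | empty =>
    exact ff32h_congr ff32h_zero Finset.sum_empty.symm Finset.sum_empty.symm Finset.sum_empty.symm
  | insert a s ha ih =>
    exact ff32h_congr
      (ff32h_add (h a (Finset.mem_insert_self a s))
        (ih fun i hi => h i (Finset.mem_insert_of_mem hi)))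
      (Finset.sum_insert ha).symm (Finset.sum_insert ha).symm (Finset.sum_insert ha).symm

/-- finite `ℤ`-linear combinations of Hecke triples, in `Finsupp.sum` form. -/
theorem ff32h_finsupp_sum {ι : Type*} (a : ι →₀ ℤ) (X : ι → Module.End ℂ (CuspForm (Gamma0 N) 2))
    (E : ι → AddMonoid.End (s16lbAb N)) (J : ι → Module.End ℤ (JZero N))
    (h : ∀ i ∈ a.support, Ff32Hk N S (X i) (E i) (J i)) :
    Ff32Hk N S (a.sum fun i k => k • X i) (a.sum fun i k => k • E i)
      (a.sum fun i k => k • J i) :=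
  ff32h_sum a.support _ _ _ fun i hi => ff32h_zsmul (h i hi) (a i)

/-- powers (the middle component of a power is the power: one element commutes with itself). -/
theorem ff32h_pow (h : Ff32Hk N S x e j) (k : ℕ) : Ff32Hk N S (x ^ k) (e ^ k) (j ^ k) := by
  induction k with
  | zero => exact ff32h_congr Ff32Hk.one (pow_zero _).symm (pow_zero _).symm (pow_zero _).symm
  | succ k ih =>
    exact ff32h_congr (Ff32Hk.mul ih h) (pow_succ _ _).symm (pow_succ' _ _).symm
      (pow_succ _ _).symm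

/-- **Lucas sequences of Hecke triples** (`V_b(t, d)` in each of the three rings). -/
theorem ff32h_luc (h : Ff32Hk N S x e j) (d : ℤ) (b : ℕ) :
    Ff32Hk N S (gunLuc x d b) (gunLuc e d b) (gunLuc j d b) := by
  induction b using Nat.strong_induction_on with
  | _ b ih =>
    match b with
    | 0 => exact ff32h_two
    | 1 => exact h
    | (b + 2) =>
      rw [gunLuc_succ_succ, gunLuc_succ_succ, gunLuc_succ_succ, (gunLuc_commute e d (b + 1)).eq]
      exact Ff32Hk.sub (Ff32Hk.mul h (ih (b + 1) (by omega))) (ff32h_zsmul (ih b (by omega)) d)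

end Closure

section Projections

variable {N : ℕ} [NeZero N] {S : Set ℕ}
  {x : Module.End ℂ (CuspForm (Gamma0 N) 2)} {e : AddMonoid.End (s16lbAb N)}
  {j : Module.End ℤ (JZero N)}

/-- the form component of a Hecke triple lies in the Hecke algebra `𝕋_S`. -/
theorem ff32h_mem (h : Ff32Hk N S x e j) : x ∈ CuspForm.heckeAlgebra N 2 S := by
  induction h with
  | T hℓ hℓN hℓS => exact CuspForm.heckeTLin_mem_heckeAlgebra hℓ hℓN hℓS
  | one => exact one_mem _
  | sub _ _ ih ih' => exact sub_mem ih ih'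
  | mul _ _ ih ih' => exact mul_mem ih ih'

omit [NeZero N] in
theorem ff32h_corr_one : GunCorr N (1 : Module.End ℂ (CuspForm (Gamma0 N) 2)) 1 :=
  fun _ => AddMonoidHom.ext fun _ => rfl

/-- the form and the homology components of a Hecke triple correspond under the period pairing. -/
theorem ff32h_corr (h : Ff32Hk N S x e j) : GunCorr N x e := by
  induction h with
  | T hℓ hℓN hℓS => exact gunCorr_T hℓ hℓN
  | one => exact ff32h_corr_one
  | sub _ _ ih ih' => exact gunCorr_sub ih ih'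
  | mul _ _ ih ih' => exact gunCorr_mul ih ih'

/-- the `J`-component of a Hecke triple commutes with the Galois action. -/
theorem ff32h_galois (h : Ff32Hk N S x e j) (σ : FfGal) (y : JZero N) :
    j (σ • y) = σ • j y := by
  induction h generalizing y with
  | T hℓ hℓN hℓS => exact (gasm_hecke_galois N ⟨_, hℓ⟩ σ y).symm
  | one => rfl
  | sub _ _ ih ih' => rw [LinearMap.sub_apply, LinearMap.sub_apply, ih, ih', smul_sub]
  | mul _ _ ih ih' => rw [Module.End.mul_apply, Module.End.mul_apply, ih', ih]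

/-- the homology component of a Hecke triple preserves the parabolic + elliptic subgroup. -/
theorem ff32h_mem_PE (h : Ff32Hk N S x e j) {y : s16lbAb N} (hy : y ∈ gprPE N) :
    e y ∈ gprPE N := by
  induction h generalizing y with
  | T hℓ hℓN hℓS => exact gprT_mem_PE N _ hy
  | one => exact hy
  | sub _ _ ih ih' => exact (gprPE N).sub_mem (ih hy) (ih' hy)
  | mul _ _ ih ih' => exact ih' (ih hy)

/-- `Hom_pe(Γ₀(N), A)` is stable under precomposition with the homology component. -/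
theorem ff32h_comp_mem_homPE (h : Ff32Hk N S x e j) {A : Type*} [AddCommGroup A]
    {χ : s16lbAb N →+ A} (hχ : χ ∈ gprHomPE N A) : χ.comp e ∈ gprHomPE N A := by
  rw [gpr_mem_homPE_iff_le_ker] at hχ ⊢
  intro y hy
  exact hχ (ff32h_mem_PE h hy)

/-- **`Θ` intertwines the homology component with the `J`-component** (for any `Θ` with the
Hecke compatibility of `gun_theta`). -/
theorem ff32h_theta {n : ℕ} (Θ : gprHomPE N (ZMod n) →+ JZero N)
    (hΘ : ∀ (ℓ : ℕ) (hℓ : ℓ.Prime) (_ : ¬ ℓ ∣ N) (_ : ¬ ℓ ∣ n) (χ χ' : gprHomPE N (ZMod n)),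
      (χ' : s16lbAb N →+ ZMod n) = (χ : s16lbAb N →+ ZMod n).comp (gprT N ℓ) →
        Θ χ' = heckeOperatorBar N ⟨ℓ, hℓ⟩ (Θ χ))
    (hS : ∀ ℓ : ℕ, ℓ.Prime → ℓ ∉ S → ¬ ℓ ∣ n)
    (h : Ff32Hk N S x e j) (χ χ' : gprHomPE N (ZMod n))
    (hχ : (χ' : s16lbAb N →+ ZMod n) = (χ : s16lbAb N →+ ZMod n).comp e) :
    Θ χ' = j (Θ χ) := by
  induction h generalizing χ χ' with
  | T hℓ hℓN hℓS => exact hΘ _ hℓ hℓN (hS _ hℓ hℓS) χ χ' hχ
  | one =>
    have : χ' = χ := Subtype.ext (hχ.trans (AddMonoidHom.ext fun _ => rfl))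
    rw [this]
    rfl
  | @sub x x' e e' j j' h h' ih ih' =>
    have h1 := ih χ ⟨_, ff32h_comp_mem_homPE h χ.2⟩ rfl
    have h2 := ih' χ ⟨_, ff32h_comp_mem_homPE h' χ.2⟩ rfl
    have h3 : χ' = (⟨_, ff32h_comp_mem_homPE h χ.2⟩ : gprHomPE N (ZMod n))
        - ⟨_, ff32h_comp_mem_homPE h' χ.2⟩ := by
      refine Subtype.ext ?_
      rw [hχ, AddSubgroup.coe_sub]
      refine AddMonoidHom.ext fun y => ?_
      change (χ : s16lbAb N →+ ZMod n) (e y - e' y)
        = (χ : s16lbAb N →+ ZMod n) (e y) - (χ : s16lbAb N →+ ZMod n) (e' y)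
      rw [map_sub]
    rw [h3, map_sub, h1, h2, LinearMap.sub_apply]
  | @mul x x' e e' j j' h h' ih ih' =>
    have h1 := ih' χ ⟨_, ff32h_comp_mem_homPE h' χ.2⟩ rfl
    have h2 := ih ⟨_, ff32h_comp_mem_homPE h' χ.2⟩ χ' (by rw [hχ]; rfl)
    rw [h2, h1, Module.End.mul_apply]

end Projections

section Lattice

/-- **(LAT)** a Hecke triple whose `J`-component kills `J₀(N)[p^m]` has its form component in
`p^(m-c) 𝕋_S` up to the prime-to-`p` constant `c₁`. -/
theorem ff32h_lattice (N : ℕ) [NeZero N] (S : Set ℕ) (p : ℕ) (hp : p.Prime)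
    (hS : ∀ ℓ : ℕ, ℓ.Prime → ℓ ∉ S → ℓ ≠ p) : Ff32LatticeSpec N S p := by
  obtain ⟨c, c₁, hcop, H⟩ := gun_lattice N S p hp
  refine ⟨c, c₁, hcop, fun m x e j hk hj => ?_⟩
  obtain ⟨Θ, hinj, hΘ⟩ := gun_theta N (p ^ m) (pow_pos hp.pos m)
  have hS' : ∀ ℓ : ℕ, ℓ.Prime → ℓ ∉ S → ¬ ℓ ∣ p ^ m := fun ℓ hℓ hℓS hdvd =>
    hS ℓ hℓ hℓS ((Nat.prime_dvd_prime_iff_eq hℓ hp).mp (hℓ.dvd_of_dvd_pow hdvd))
  obtain ⟨w, hw⟩ := H m ⟨x, ff32h_mem hk⟩ e (ff32h_corr hk) (fun χ hχ => by
    have h1 : Θ ⟨χ.comp e, ff32h_comp_mem_homPE hk hχ⟩ = j (Θ ⟨χ, hχ⟩) :=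
      ff32h_theta Θ hΘ hS' hk ⟨χ, hχ⟩ ⟨_, ff32h_comp_mem_homPE hk hχ⟩ rfl
    have h2 : p ^ m • Θ ⟨χ, hχ⟩ = 0 := by
      rw [← map_nsmul]
      have : p ^ m • (⟨χ, hχ⟩ : gprHomPE N (ZMod (p ^ m))) = 0 := by
        refine Subtype.ext (AddMonoidHom.ext fun y => ?_)
        rw [AddSubgroup.coe_nsmul, AddMonoidHom.nsmul_apply, AddSubgroup.coe_zero,
          AddMonoidHom.zero_apply, nsmul_eq_mul, ZMod.natCast_self, zero_mul]
      rw [this, map_zero]
    rw [hj _ h2] at h1
    have h3 := hinj (h1.trans (map_zero Θ).symm)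
    exact congrArg Subtype.val h3)
  refine ⟨w, ?_⟩
  have h4 := congrArg Subtype.val hw
  rwa [AddSubmonoidClass.coe_nsmul, AddSubmonoidClass.coe_nsmul] at h4

end Lattice

end Fermat.Agent.FF
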