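import Mathlib

/-!
# PROGRAM FF, part D (helper2): the abstract commutativity argument behind (STAR)

`G` acts on `M`; `Y := M[n]`; `j σ` are additive endomorphisms of `M` commuting with `G` with
`j σ = σ + c(σ) σ⁻¹` on `Y` (`c` multiplicative modulo `n`, prime to `n`); `a ∈ ℤ[G]` kills `Y`.
Then `J_h := ∑ a_g j (g h)` equals `c(h) h⁻¹ a^*` on `Y`, `a^* := ∑ a_g c(g) g⁻¹`; `G` acts
commutatively on `a^* Y`; and `j σ₁ - j σ₂` kills `J_h Y` when `σ₁ = g₁ g₂ g₃`, `σ₂ = g₂ g₁ g₃`.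
-/

set_option autoImplicit false
set_option linter.unusedSectionVars false

namespace Fermat.Agent.FF

section Abstract

variable {G : Type*} [Group G] {M : Type*} [AddCommGroup M] [DistribMulAction G M]

/-- a multiplier prime to `n` acts injectively on the `n`-torsion. -/
theorem ff32a_eq_of_nsmul_eq {n c : ℕ} (hc : c.Coprime n) {z z' : M} (hz : n • z = 0)
    (hz' : n • z' = 0) (h : c • z = c • z') : z = z' := by
  have h1 : ((Nat.gcd c n : ℕ) : ℤ) = c * Nat.gcdA c n + n * Nat.gcdB c n := Nat.gcd_eq_gcd_ab c n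
  rw [hc.gcd_eq_one] at h1
  have hd : n • (z - z') = 0 := by rw [smul_sub, hz, hz', sub_zero]
  have hd' : c • (z - z') = 0 := by rw [smul_sub, h, sub_self]
  have h2 : ((1 : ℕ) : ℤ) • (z - z') = 0 := by
    rw [h1, add_smul, mul_comm (c : ℤ), mul_comm (n : ℤ), mul_smul, mul_smul, natCast_zsmul,
      natCast_zsmul, hd, hd', smul_zero, smul_zero, add_zero]
  rw [Nat.cast_one, one_smul] at h2
  exact sub_eq_zero.mp h2

/-- exponents of a primitive root with the same power act in the same way on the torsion. -/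
theorem ff32a_nsmul_congr {K : Type*} [CommRing K] {ζ : K} {n : ℕ} (hn : 0 < n)
    (hζ : IsPrimitiveRoot ζ n) {a b : ℕ} (h : ζ ^ a = ζ ^ b) {z : M} (hz : n • z = 0) :
    a • z = b • z := by
  have hmod : ∀ c : ℕ, ζ ^ c = ζ ^ (c % n) := by
    intro c
    conv_lhs => rw [← Nat.mod_add_div c n, pow_add, pow_mul, hζ.pow_eq_one, one_pow, mul_one]
  have h1 : a % n = b % n := by
    apply hζ.pow_inj (Nat.mod_lt _ hn) (Nat.mod_lt _ hn)
    rw [← hmod, ← hmod, h]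
  rw [← Nat.mod_add_div a n, ← Nat.mod_add_div b n, add_nsmul, add_nsmul, mul_comm n, mul_comm n,
    mul_nsmul', mul_nsmul', hz, nsmul_zero, nsmul_zero, h1]

variable (n : ℕ) (cc : G → ℕ) (a : G →₀ ℤ) (j : G → Module.End ℤ M)

/-- `a^* y = ∑ a_g c(g) g⁻¹ y`. -/
noncomputable def ff32aStar (y : M) : M := a.sum fun g k => (k * (cc g : ℤ)) • (g⁻¹ • y)

/-- `J_h = ∑ a_g j (g h)`. -/
noncomputable def ff32aJ (h : G) : Module.End ℤ M := a.sum fun g k => k • j (g * h)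

/-- the hypotheses of the abstract argument. -/
structure Ff32aHyp : Prop where
  jgal : ∀ (σ τ : G) (y : M), τ • j σ y = j σ (τ • y)
  jval : ∀ (σ : G) (y : M), n • y = 0 → j σ y = σ • y + cc σ • (σ⁻¹ • y)
  ccmul : ∀ (g h : G) (z : M), n • z = 0 → cc (g * h) • z = (cc g * cc h) • z
  ccone : ∀ z : M, n • z = 0 → cc 1 • z = z
  cop : ∀ g : G, (cc g).Coprime n
  kills : ∀ y : M, n • y = 0 → (a.sum fun g k => k • (g • y)) = 0

variable {n cc a j}

theorem ff32a_tors_smul (σ : G) {y : M} (hy : n • y = 0) : n • (σ • y) = 0 := by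
  rw [smul_comm, hy, smul_zero]

theorem ff32a_tors_star {y : M} (hy : n • y = 0) : n • ff32aStar cc a y = 0 := by
  unfold ff32aStar
  rw [Finsupp.sum, Finset.smul_sum]
  refine Finset.sum_eq_zero fun g _ => ?_
  rw [smul_comm, ff32a_tors_smul g⁻¹ hy, smul_zero]

theorem ff32aJ_apply (h : G) (y : M) :
    ff32aJ a j h y = a.sum fun g k => k • j (g * h) y := by
  unfold ff32aJ
  rw [Finsupp.sum, Finsupp.sum, LinearMap.sum_apply]
  rfl

theorem ff32aJ_gal (H : Ff32aHyp n cc a j) (h τ : G) (y : M) :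
    τ • ff32aJ a j h y = ff32aJ a j h (τ • y) := by
  rw [ff32aJ_apply, ff32aJ_apply, Finsupp.sum, Finsupp.sum, Finset.smul_sum]
  refine Finset.sum_congr rfl fun g _ => ?_
  rw [smul_comm, H.jgal]

/-- (R1) `J_h = c(h) h⁻¹ a^*` on the torsion. -/
theorem ff32aJ_eq (H : Ff32aHyp n cc a j) (h : G) {y : M} (hy : n • y = 0) :
    ff32aJ a j h y = cc h • (h⁻¹ • ff32aStar cc a y) := by
  rw [ff32aJ_apply]
  have h1 : ∀ g ∈ a.support, a g • j (g * h) y
      = a g • (g • (h • y)) + cc h • (h⁻¹ • ((a g * (cc g : ℤ)) • (g⁻¹ • y))) := by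
    intro g _
    rw [H.jval (g * h) y hy, smul_add, mul_smul, mul_inv_rev, mul_smul]
    congr 1
    have hz : n • (h⁻¹ • (g⁻¹ • y)) = 0 := ff32a_tors_smul _ (ff32a_tors_smul _ hy)
    rw [H.ccmul g h _ hz, mul_comm (cc g) (cc h), mul_smul, mul_smul, natCast_zsmul,
      smul_comm (a g) (cc h), smul_comm h⁻¹ (a g), smul_comm h⁻¹ (cc g)]
  rw [Finsupp.sum, Finset.sum_congr rfl h1, Finset.sum_add_distrib]
  have h2 := H.kills (h • y) (ff32a_tors_smul h hy)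
  rw [Finsupp.sum] at h2
  rw [h2, zero_add, ← Finset.smul_sum, ← Finset.smul_sum]
  rfl

/-- `a^* = J_1` on the torsion. -/
theorem ff32aStar_eq (H : Ff32aHyp n cc a j) {y : M} (hy : n • y = 0) :
    ff32aStar cc a y = ff32aJ a j 1 y := by
  rw [ff32aJ_eq H 1 hy, inv_one, one_smul, H.ccone _ (ff32a_tors_star hy)]

/-- (R2) `a^*` is equivariant on the torsion. -/
theorem ff32aStar_gal (H : Ff32aHyp n cc a j) (σ : G) {y : M} (hy : n • y = 0) :
    ff32aStar cc a (σ • y) = σ • ff32aStar cc a y := by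
  rw [ff32aStar_eq H hy, ff32aStar_eq H (ff32a_tors_smul σ hy), ff32aJ_gal H]

/-- (R3) `G` acts commutatively on `a^* Y`. -/
theorem ff32a_comm (H : Ff32aHyp n cc a j) (σ τ : G) {y : M} (hy : n • y = 0) :
    σ • (τ • ff32aStar cc a y) = τ • (σ • ff32aStar cc a y) := by
  -- write `τ = h⁻¹`
  obtain ⟨h, rfl⟩ : ∃ h : G, τ = h⁻¹ := ⟨τ⁻¹, (inv_inv τ).symm⟩
  have hs : n • ff32aStar cc a y = 0 := ff32a_tors_star hy
  refine ff32a_eq_of_nsmul_eq (H.cop h) (ff32a_tors_smul _ (ff32a_tors_smul _ hs))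
    (ff32a_tors_smul _ (ff32a_tors_smul _ hs)) ?_
  calc cc h • (σ • (h⁻¹ • ff32aStar cc a y))
      = σ • (cc h • (h⁻¹ • ff32aStar cc a y)) := by rw [smul_comm]
    _ = σ • ff32aJ a j h y := by rw [ff32aJ_eq H h hy]
    _ = ff32aJ a j h (σ • y) := ff32aJ_gal H h σ y
    _ = cc h • (h⁻¹ • ff32aStar cc a (σ • y)) := ff32aJ_eq H h (ff32a_tors_smul σ hy)
    _ = cc h • (h⁻¹ • (σ • ff32aStar cc a y)) := by rw [ff32aStar_gal H σ hy]

/-- (R4) `j (g₁ g₂ g₃) - j (g₂ g₁ g₃)` kills `a^* Y`. -/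
theorem ff32a_kill_star (H : Ff32aHyp n cc a j) (g₁ g₂ g₃ : G)
    (hcc : ∀ z : M, n • z = 0 → cc (g₁ * g₂ * g₃) • z = cc (g₂ * g₁ * g₃) • z)
    {y : M} (hy : n • y = 0) :
    (j (g₁ * g₂ * g₃) - j (g₂ * g₁ * g₃)) (ff32aStar cc a y) = 0 := by
  have hs : n • ff32aStar cc a y = 0 := ff32a_tors_star hy
  rw [LinearMap.sub_apply, H.jval _ _ hs, H.jval _ _ hs]
  have e1 : (g₁ * g₂ * g₃) • ff32aStar cc a y = (g₂ * g₁ * g₃) • ff32aStar cc a y := by
    rw [mul_smul, mul_smul, mul_smul, mul_smul, ← ff32aStar_gal H g₃ hy,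
      ff32a_comm H g₁ g₂ (ff32a_tors_smul g₃ hy)]
  have e2 : (g₁ * g₂ * g₃)⁻¹ • ff32aStar cc a y = (g₂ * g₁ * g₃)⁻¹ • ff32aStar cc a y := by
    rw [mul_inv_rev, mul_inv_rev, mul_inv_rev, mul_inv_rev, mul_smul, mul_smul, mul_smul, mul_smul,
      ff32a_comm H g₂⁻¹ g₁⁻¹ hy]
  rw [e1, e2, hcc _ (ff32a_tors_smul _ hs), sub_self]

/-- (R5) `j (g₁ g₂ g₃) - j (g₂ g₁ g₃)` kills `J_h Y`. -/
theorem ff32a_kill_J (H : Ff32aHyp n cc a j) (g₁ g₂ g₃ : G)
    (hcc : ∀ z : M, n • z = 0 → cc (g₁ * g₂ * g₃) • z = cc (g₂ * g₁ * g₃) • z)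
    (h : G) {y : M} (hy : n • y = 0) :
    (j (g₁ * g₂ * g₃) - j (g₂ * g₁ * g₃)) (ff32aJ a j h y) = 0 := by
  rw [ff32aJ_eq H h hy, map_nsmul, ← ff32aStar_gal H h⁻¹ hy,
    ff32a_kill_star H g₁ g₂ g₃ hcc (ff32a_tors_smul h⁻¹ hy), smul_zero]

end Abstract

end Fermat.Agent.FF
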