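import Mathlib
import Fermat.Agent.FF.S32.Spec
import Fermat.Agent.FF.S32.StarAbs
import Fermat.Agent.G.Asm.HeckeGalois

/-!
# PROGRAM FF, part D (helper2): (STAR) from (LAT), (FROB), (TR), (NAC)

`ff32_star : Ff32LatticeSpec N S p → Ff32FrobSpec p H → Ff32TraceSpec H.ρ → Ff32NacSpec H.ρ →
  Ff32StarSpec p H`.
-/

set_option autoImplicit false
set_option linter.unusedSectionVars false
set_option linter.style.haveILetI false

noncomputable section

namespace Fermat.Agent.FF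

open CongruenceSubgroup ModularCurve Fermat.Agent.S16LB Fermat.Agent.G

/-! ### closure properties of Hecke triples (the few that the assembly needs) -/

section Closure

variable {N : ℕ} [NeZero N] {S : Set ℕ}

theorem ff32k_zero : Ff32Hk N S 0 0 0 := by
  have h := Ff32Hk.sub (Ff32Hk.one (N := N) (S := S)) Ff32Hk.one
  rwa [sub_self, sub_self, sub_self] at h

theorem ff32k_neg {x : Module.End ℂ (CuspForm (Gamma0 N) 2)} {e : AddMonoid.End (s16lbAb N)}
    {j : Module.End ℤ (JZero N)} (h : Ff32Hk N S x e j) : Ff32Hk N S (-x) (-e) (-j) := by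
  have h' := Ff32Hk.sub ff32k_zero h
  rwa [zero_sub, zero_sub, zero_sub] at h'

theorem ff32k_add {x x' : Module.End ℂ (CuspForm (Gamma0 N) 2)} {e e' : AddMonoid.End (s16lbAb N)}
    {j j' : Module.End ℤ (JZero N)} (h : Ff32Hk N S x e j) (h' : Ff32Hk N S x' e' j') :
    Ff32Hk N S (x + x') (e + e') (j + j') := by
  have h'' := Ff32Hk.sub h (ff32k_neg h')
  rwa [sub_neg_eq_add, sub_neg_eq_add, sub_neg_eq_add] at h''

theorem ff32k_nsmul {x : Module.End ℂ (CuspForm (Gamma0 N) 2)} {e : AddMonoid.End (s16lbAb N)}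
    {j : Module.End ℤ (JZero N)} (h : Ff32Hk N S x e j) (k : ℕ) :
    Ff32Hk N S (k • x) (k • e) (k • j) := by
  induction k with
  | zero => rw [zero_nsmul, zero_nsmul, zero_nsmul]; exact ff32k_zero
  | succ k ih => rw [succ_nsmul, succ_nsmul, succ_nsmul]; exact ff32k_add ih h

theorem ff32k_zsmul {x : Module.End ℂ (CuspForm (Gamma0 N) 2)} {e : AddMonoid.End (s16lbAb N)}
    {j : Module.End ℤ (JZero N)} (h : Ff32Hk N S x e j) (k : ℤ) :
    Ff32Hk N S (k • x) (k • e) (k • j) := by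
  obtain ⟨k, rfl | rfl⟩ := k.eq_nat_or_neg
  · rw [natCast_zsmul, natCast_zsmul, natCast_zsmul]; exact ff32k_nsmul h k
  · rw [neg_smul, neg_smul, neg_smul, natCast_zsmul, natCast_zsmul, natCast_zsmul]
    exact ff32k_neg (ff32k_nsmul h k)

theorem ff32k_sum {ι : Type*} (s : Finset ι) (x : ι → Module.End ℂ (CuspForm (Gamma0 N) 2))
    (e : ι → AddMonoid.End (s16lbAb N)) (j : ι → Module.End ℤ (JZero N))
    (h : ∀ i ∈ s, Ff32Hk N S (x i) (e i) (j i)) :
    Ff32Hk N S (∑ i ∈ s, x i) (∑ i ∈ s, e i) (∑ i ∈ s, j i) := by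
  classical
  induction s using Finset.induction_on with
  | empty => simp only [Finset.sum_empty]; exact ff32k_zero
  | insert i s hi ih =>
    rw [Finset.sum_insert hi, Finset.sum_insert hi, Finset.sum_insert hi]
    exact ff32k_add (h i (Finset.mem_insert_self i s))
      (ih fun i' hi' => h i' (Finset.mem_insert_of_mem hi'))

theorem ff32k_mem {x : Module.End ℂ (CuspForm (Gamma0 N) 2)} {e : AddMonoid.End (s16lbAb N)}
    {j : Module.End ℤ (JZero N)} (h : Ff32Hk N S x e j) : x ∈ CuspForm.heckeAlgebra N 2 S := by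
  induction h with
  | T hℓ hℓN hℓS => exact CuspForm.heckeTLin_mem_heckeAlgebra hℓ hℓN hℓS
  | one => exact one_mem _
  | sub _ _ ih ih' => exact sub_mem ih ih'
  | mul _ _ ih ih' => exact mul_mem ih ih'

theorem ff32k_gal {x : Module.End ℂ (CuspForm (Gamma0 N) 2)} {e : AddMonoid.End (s16lbAb N)}
    {j : Module.End ℤ (JZero N)} (h : Ff32Hk N S x e j) (σ : FfGal) (y : JZero N) :
    σ • j y = j (σ • y) := by
  induction h generalizing y with
  | T hℓ hℓN hℓS => exact gasm_hecke_galois N ⟨_, hℓ⟩ σ y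
  | one => rfl
  | sub _ _ ih ih' => rw [LinearMap.sub_apply, LinearMap.sub_apply, smul_sub, ih, ih']
  | mul _ _ ih ih' => rw [Module.End.mul_apply, Module.End.mul_apply, ih, ih']

end Closure

/-! ### the assembly -/

section Datum

variable {p : ℕ} {N : ℕ} [NeZero N] {S : Finset ℕ}
  {𝒪 : Type} [CommRing 𝒪] [IsDomain 𝒪] [IsDiscreteValuationRing 𝒪]
  [IsAdicComplete (IsLocalRing.maximalIdeal 𝒪) 𝒪]
  {θ : CuspForm.heckeAlgebra N 2 (↑S : Set ℕ) →+* IsLocalRing.ResidueField 𝒪}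
  {T : Type} [CommRing T] [IsLocalRing T] [IsNoetherianRing T]
  [IsAdicComplete (IsLocalRing.maximalIdeal T) T] [Algebra 𝒪 T] [IsLocalHom (algebraMap 𝒪 T)]
  [Module.Finite 𝒪 T] [Module.Free 𝒪 T]

/-- **(STAR)** from the four leaves. -/
theorem ff32_star (hp : p.Prime) (hp𝒪 : (p : 𝒪) ∈ IsLocalRing.maximalIdeal 𝒪)
    (H : CuspForm.HeckeGaloisRepDatum N (↑S : Set ℕ) 𝒪 θ T)
    (hLat : Ff32LatticeSpec N (↑S : Set ℕ) p) (hFrob : Ff32FrobSpec p H)
    (hTr : Ff32TraceSpec H.ρ) (hNac : Ff32NacSpec H.ρ) : Ff32StarSpec p H := by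
  classical
  intro n
  obtain ⟨c, c₁, hc₁, hlat⟩ := hLat
  refine ⟨n + c, fun a ha v => ?_⟩
  rcases Nat.eq_zero_or_pos n with rfl | hn
  · rw [pow_zero, Ideal.one_eq_top, Submodule.top_smul]
    trivial
  set m : ℕ := n + c with hm
  refine hTr _ a (fun h => ?_) v
  -- a primitive root
  have hm0 : p ^ m ≠ 0 := pow_ne_zero _ hp.ne_zero
  have hmpos : 0 < p ^ m := Nat.pos_of_ne_zero hm0
  haveI : NeZero (p ^ m) := ⟨hm0⟩
  obtain ⟨ζ, hζ⟩ := HasEnoughRootsOfUnity.exists_primitiveRoot FfQb (p ^ m)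
  choose x e j hk hx cc htr hcz hj using hFrob m n ζ hζ
  -- the cyclotomic exponents
  have hζmul : ∀ g h : FfGal, ζ ^ cc (g * h) = ζ ^ (cc g * cc h) := by
    intro g h
    rw [← hcz (g * h), AlgEquiv.mul_apply, hcz h, map_pow, hcz g, ← pow_mul]
  have Habs : Ff32aHyp (p ^ m) cc a j :=
    { jgal := fun σ τ y => ff32k_gal (hk σ) τ y
      jval := fun σ y hy => hj σ y hy
      ccmul := fun g h z hz => ff32a_nsmul_congr hmpos hζ (hζmul g h) hz
      ccone := fun z hz => by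
        have h1 : ζ ^ cc 1 = ζ ^ 1 := by rw [← hcz 1, pow_one]; rfl
        rw [ff32a_nsmul_congr hmpos hζ h1 hz, one_smul]
      cop := fun g => by
        have h1 : IsPrimitiveRoot (ζ ^ cc g) (p ^ m) := by
          rw [← hcz g]
          exact hζ.map_of_injective (f := (g : FfQb ≃ₐ[ℚ] FfQb)) g.injective
        exact (hζ.pow_iff_coprime hmpos (cc g)).mp h1
      kills := ha }
  obtain ⟨g₁, g₂, g₃, hunit⟩ := hNac
  have hcc : ∀ z : JZero N, p ^ m • z = 0 → cc (g₁ * g₂ * g₃) • z = cc (g₂ * g₁ * g₃) • z := by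
    intro z hz
    refine ff32a_nsmul_congr hmpos hζ ?_ hz
    rw [hζmul, hζmul, pow_mul, pow_mul, hζmul, hζmul, mul_comm (cc g₁)]
  -- the Hecke triples `X_h` and `s`
  set 𝕋 := CuspForm.heckeAlgebra N 2 (↑S : Set ℕ) with h𝕋
  have hkh : Ff32Hk N (↑S : Set ℕ) (∑ g ∈ a.support, a g • x (g * h))
      (∑ g ∈ a.support, a g • e (g * h)) (ff32aJ a j h) :=
    ff32k_sum a.support _ _ _ fun g _ => ff32k_zsmul (hk (g * h)) (a g)
  have hks := Ff32Hk.sub (hk (g₁ * g₂ * g₃)) (hk (g₂ * g₁ * g₃))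
  have hkill : ∀ y : JZero N, p ^ m • y = 0 →
      ((j (g₁ * g₂ * g₃) - j (g₂ * g₁ * g₃)) * ff32aJ a j h) y = 0 := fun y hy => by
    rw [Module.End.mul_apply]
    exact ff32a_kill_J Habs g₁ g₂ g₃ hcc h hy
  obtain ⟨w, hw⟩ := hlat m _ _ _ (Ff32Hk.mul hks hkh) hkill
  -- pass to the Hecke algebra and apply `π`
  set xs : 𝕋 := ⟨x (g₁ * g₂ * g₃), hx _⟩ - ⟨x (g₂ * g₁ * g₃), hx _⟩ with hxs
  set Xh : 𝕋 := ∑ g ∈ a.support, a g • (⟨x (g * h), hx _⟩ : 𝕋) with hXh
  have hXh_coe : (Xh : Module.End ℂ (CuspForm (Gamma0 N) 2)) = ∑ g ∈ a.support, a g • x (g * h) := by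
    rw [hXh, AddSubmonoidClass.coe_finsetSum]
    rfl
  have hprod : c₁ • (xs * Xh) = p ^ (m - c) • w := by
    apply Subtype.ext
    rw [AddSubmonoidClass.coe_nsmul, AddSubmonoidClass.coe_nsmul, MulMemClass.coe_mul, hXh_coe]
    exact hw
  have hmc : m - c = n := by omega
  rw [hmc] at hprod
  have h3 := congrArg H.π hprod
  rw [map_nsmul, map_nsmul, map_mul, nsmul_eq_mul, nsmul_eq_mul] at h3
  obtain ⟨u, hu⟩ := gunm_isUnit_natCast (T := T) (gunm_p_mem hp𝒪) hc₁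
  have hpn : ((p ^ n : ℕ) : T) ∈ IsLocalRing.maximalIdeal T ^ n := by
    rw [Nat.cast_pow]
    exact Ideal.pow_mem_pow (gunm_p_mem hp𝒪) n
  have h4 : H.π xs * H.π Xh ∈ IsLocalRing.maximalIdeal T ^ n := by
    have h5 : H.π xs * H.π Xh = (↑u⁻¹ : T) * (((p ^ n : ℕ) : T) * H.π w) := by
      rw [← h3, ← mul_assoc, ← hu, Units.inv_mul, one_mul]
    rw [h5]
    exact Ideal.mul_mem_left _ _ (Ideal.mul_mem_right _ _ hpn)
  -- `π s` is a unit
  have hle : IsLocalRing.maximalIdeal T ^ n ≤ IsLocalRing.maximalIdeal T :=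
    Ideal.pow_le_self (Nat.pos_iff_ne_zero.mp hn)
  have hxsu : IsUnit (H.π xs) := by
    by_contra hnu
    have h6 : H.π xs ∈ IsLocalRing.maximalIdeal T := (IsLocalRing.mem_maximalIdeal _).mpr hnu
    have h7 : H.π xs - (LinearMap.trace T H.ρ.V (H.ρ.ρ (g₁ * g₂ * g₃))
        - LinearMap.trace T H.ρ.V (H.ρ.ρ (g₂ * g₁ * g₃))) ∈ IsLocalRing.maximalIdeal T := by
      rw [hxs, map_sub, sub_sub_sub_comm]
      exact Ideal.sub_mem _ (hle (htr _)) (hle (htr _))
    have h8 := Ideal.sub_mem _ h6 h7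
    rw [sub_sub_cancel] at h8
    exact (IsLocalRing.mem_maximalIdeal _).mp h8 hunit
  have h9 : H.π Xh ∈ IsLocalRing.maximalIdeal T ^ n := by
    obtain ⟨us, hus⟩ := hxsu
    have : H.π Xh = (↑us⁻¹ : T) * (H.π xs * H.π Xh) := by
      rw [← mul_assoc, ← hus, Units.inv_mul, one_mul]
    rw [this]
    exact Ideal.mul_mem_left _ _ h4
  -- compare with the traces
  have h10 : H.π Xh - (a.sum fun g k => k • LinearMap.trace T H.ρ.V (H.ρ.ρ (g * h)))
      ∈ IsLocalRing.maximalIdeal T ^ n := by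
    rw [hXh, map_sum, Finsupp.sum, ← Finset.sum_sub_distrib]
    refine Ideal.sum_mem _ fun g _ => ?_
    rw [map_zsmul, ← smul_sub]
    exact Submodule.smul_of_tower_mem _ _ (htr (g * h))
  have h11 := Ideal.sub_mem _ h9 h10
  rwa [sub_sub_cancel] at h11

end Datum

end Fermat.Agent.FF
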