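import Mathlib
import Fermat.Agent.FF.S32.Spec

/-!
# PROGRAM FF, part D, leaf D1 (ALG): annihilators in `ℤ[G]` ⟹ subquotient of a power

Owner: helper15.  Prefix `ff32s`.  Imports `FF/Spec.lean` (helper16) and `FF/S32/Spec.lean` (helper2).

`ff32s_main : FfSubSpec ℓ → FfQuotSpec ℓ → FfProdSpec ℓ → Ff32SubquotSpec ℓ`.

If every `a ∈ ℤ[G]` killing `Y` kills `V`, then `V` is an equivariant quotient of the stable subgroup
`M₁ := range α` of `Y^(V × Y)`, `α f (v, y) := f v • y` (`f : V → ℤ[G]`), through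
`q (α f) := ∑ v, f v • v`.  Global orders pass to finite powers (binary products + transport along
injective equivariant maps), stable subgroups and equivariant quotients.
-/

set_option autoImplicit false
set_option linter.style.haveILetI false
set_option linter.unusedSectionVars false

namespace Fermat.Agent.FF

open scoped BigOperators

/-! ## the action of `ℤ[G]` -/

section Sum

/-- `a ↦ ∑ g, a g • F g`, additively in `a`. -/
noncomputable def ff32sSum {Z : Type*} [AddCommGroup Z] (F : FfGal → Z) : (FfGal →₀ ℤ) →+ Z :=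
  Finsupp.liftAddHom fun g => zmultiplesHom Z (F g)

theorem ff32sSum_apply {Z : Type*} [AddCommGroup Z] (F : FfGal → Z) (a : FfGal →₀ ℤ) :
    ff32sSum F a = a.sum fun g k => k • F g := by
  rw [ff32sSum, Finsupp.liftAddHom_apply]
  exact Finsupp.sum_congr fun g _ => zmultiplesHom_apply _ _ _

theorem ff32sSum_single {Z : Type*} [AddCommGroup Z] (F : FfGal → Z) (g : FfGal) (k : ℤ) :
    ff32sSum F (Finsupp.single g k) = k • F g := by
  rw [ff32sSum_apply, Finsupp.sum_single_index (h := fun g k => k • F g) (zero_smul _ _)]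

/-- additive maps commute with the sum. -/
theorem ff32sSum_map {Z Z' : Type*} [AddCommGroup Z] [AddCommGroup Z'] (T : Z →+ Z')
    (F : FfGal → Z) (a : FfGal →₀ ℤ) : T (ff32sSum F a) = ff32sSum (fun g => T (F g)) a := by
  rw [ff32sSum_apply, ff32sSum_apply, map_finsuppSum]
  exact Finsupp.sum_congr fun g _ => map_zsmul T _ _

/-- left translation of the support. -/
theorem ff32sSum_mapDomain {Z : Type*} [AddCommGroup Z] (F : FfGal → Z) (σ : FfGal)
    (a : FfGal →₀ ℤ) :
    ff32sSum F (Finsupp.mapDomain (fun g => σ * g) a) = ff32sSum (fun g => F (σ * g)) a := by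
  rw [ff32sSum_apply, ff32sSum_apply,
    Finsupp.sum_mapDomain_index (h := fun g k => k • F g) (fun _ => zero_smul _ _)
      (fun _ _ _ => add_smul _ _ _)]

end Sum

/-! ## actions on powers, products and stable subgroups -/

section Act

theorem ff32s_act_pi {Y : Type} [AddCommGroup Y] {act : FfGal → Y → Y} (h : FfAct Y act)
    (ι : Type) : FfAct (ι → Y) (fun σ x i => act σ (x i)) :=
  ⟨fun _ => funext fun _ => h.one _, fun σ τ _ => funext fun _ => h.mul σ τ _,
    fun σ _ _ => funext fun _ => h.add σ _ _⟩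

theorem ff32s_act_prod {M M' : Type} [AddCommGroup M] [AddCommGroup M'] {act : FfGal → M → M}
    {act' : FfGal → M' → M'} (h : FfAct M act) (h' : FfAct M' act') :
    FfAct (M × M') (fun σ x => (act σ x.1, act' σ x.2)) :=
  ⟨fun _ => Prod.ext (h.one _) (h'.one _), fun σ τ _ => Prod.ext (h.mul σ τ _) (h'.mul σ τ _),
    fun σ _ _ => Prod.ext (h.add σ _ _) (h'.add σ _ _)⟩

/-- the action as an additive map. -/
def ff32sActHom {Y : Type} [AddCommGroup Y] {act : FfGal → Y → Y} (h : FfAct Y act) (σ : FfGal) :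
    Y →+ Y :=
  AddMonoidHom.mk' (act σ) (h.add σ)

@[simp] theorem ff32sActHom_apply {Y : Type} [AddCommGroup Y] {act : FfGal → Y → Y}
    (h : FfAct Y act) (σ : FfGal) (y : Y) : ff32sActHom h σ y = act σ y := rfl

end Act

/-! ## finite powers -/

section Pow

variable (ℓ : ℕ)

theorem ff32s_pow_fin (hsub : FfSubSpec ℓ) (hprod : FfProdSpec ℓ) (Y : Type) [AddCommGroup Y]
    [Finite Y] (act : FfGal → Y → Y) (hact : FfAct Y act) (h : FfModOrd ℓ Y act) :
    ∀ r : ℕ, FfModOrd ℓ (Fin (r + 1) → Y) (fun σ x i => act σ (x i)) := by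
  intro r
  induction r with
  | zero =>
    refine hsub Y (Fin (0 + 1) → Y) act _ (Pi.evalAddMonoidHom (fun _ => Y) 0) ?_
      (fun σ x => rfl) hact h
    intro x y hxy
    funext i
    have hi : i = 0 := by
      haveI : Subsingleton (Fin (0 + 1)) := inferInstanceAs (Subsingleton (Fin 1))
      exact Subsingleton.elim _ _
    rw [hi]
    exact hxy
  | succ r ih =>
    have h2 := hprod Y (Fin (r + 1) → Y) act (fun σ x i => act σ (x i)) hact
      (ff32s_act_pi hact _) h ih
    let i : (Fin (r + 1 + 1) → Y) →+ Y × (Fin (r + 1) → Y) :=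
      { toFun := fun x => (x 0, fun j => x j.succ)
        map_zero' := rfl
        map_add' := fun _ _ => rfl }
    refine hsub (Y × (Fin (r + 1) → Y)) (Fin (r + 1 + 1) → Y) _ _ i ?_ (fun σ x => rfl)
      (ff32s_act_prod hact (ff32s_act_pi hact _)) h2
    intro x y hxy
    have h0 : x 0 = y 0 := congrArg Prod.fst hxy
    have hs : (fun j : Fin (r + 1) => x j.succ) = fun j => y j.succ := congrArg Prod.snd hxy
    funext j
    refine Fin.cases h0 (fun j' => congrFun hs j') j

/-- a global order passes to every nonempty finite power (diagonal action). -/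
theorem ff32s_pow (hsub : FfSubSpec ℓ) (hprod : FfProdSpec ℓ) (Y : Type) [AddCommGroup Y]
    [Finite Y] (act : FfGal → Y → Y) (hact : FfAct Y act) (h : FfModOrd ℓ Y act)
    (ι : Type) [Finite ι] [Nonempty ι] : FfModOrd ℓ (ι → Y) (fun σ x i => act σ (x i)) := by
  classical
  haveI := Fintype.ofFinite ι
  obtain ⟨r, hr⟩ : ∃ r, Fintype.card ι = r + 1 :=
    ⟨Fintype.card ι - 1, (Nat.succ_pred_eq_of_pos Fintype.card_pos).symm⟩
  let e : ι ≃ Fin (r + 1) := Fintype.equivFinOfCardEq hr
  let i : (ι → Y) →+ (Fin (r + 1) → Y) :=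
    { toFun := fun x j => x (e.symm j)
      map_zero' := rfl
      map_add' := fun _ _ => rfl }
  refine hsub (Fin (r + 1) → Y) (ι → Y) _ _ i ?_ (fun σ x => rfl) (ff32s_act_pi hact _)
    (ff32s_pow_fin ℓ hsub hprod Y act hact h r)
  intro x y hxy
  funext a
  have := congrFun hxy (e a)
  simpa [i] using this

end Pow

/-! ## the subquotient -/

section Subquot

variable {Y V : Type} [AddCommGroup Y] [AddCommGroup V] (actY : FfGal → Y → Y)
  (actV : FfGal → V → V)

/-- `α f (v, y) := f v • y`. -/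
noncomputable def ff32sAlpha : (V → FfGal →₀ ℤ) →+ (V × Y → Y) where
  toFun f i := ff32sSum (fun g => actY g i.2) (f i.1)
  map_zero' := by
    funext i
    simp
  map_add' f f' := by
    funext i
    simp

theorem ff32sAlpha_apply (f : V → FfGal →₀ ℤ) (i : V × Y) :
    ff32sAlpha actY f i = ff32sSum (fun g => actY g i.2) (f i.1) := rfl

/-- `β f := ∑ v, f v • v`. -/
noncomputable def ff32sBeta [Fintype V] : (V → FfGal →₀ ℤ) →+ V where
  toFun f := ∑ v, ff32sSum (fun g => actV g v) (f v)
  map_zero' := by simp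
  map_add' f f' := by simp [Finset.sum_add_distrib]

theorem ff32sBeta_apply [Fintype V] (f : V → FfGal →₀ ℤ) :
    ff32sBeta actV f = ∑ v, ff32sSum (fun g => actV g v) (f v) := rfl

/-- left translation of a family. -/
noncomputable def ff32sShift (σ : FfGal) (f : V → FfGal →₀ ℤ) : V → FfGal →₀ ℤ :=
  fun v => Finsupp.mapDomain (fun g => σ * g) (f v)

variable {actY actV}

theorem ff32s_alpha_shift (hY : FfAct Y actY) (σ : FfGal) (f : V → FfGal →₀ ℤ) (i : V × Y) :
    actY σ (ff32sAlpha actY f i) = ff32sAlpha actY (ff32sShift σ f) i := by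
  rw [ff32sAlpha_apply, ff32sAlpha_apply, ff32sShift, ff32sSum_mapDomain,
    ← ff32sActHom_apply hY σ, ff32sSum_map]
  have : (fun g => ff32sActHom hY σ (actY g i.2)) = fun g => actY (σ * g) i.2 :=
    funext fun g => by rw [ff32sActHom_apply, hY.mul]
  rw [this]

theorem ff32s_beta_shift [Fintype V] (hV : FfAct V actV) (σ : FfGal) (f : V → FfGal →₀ ℤ) :
    ff32sBeta actV (ff32sShift σ f) = actV σ (ff32sBeta actV f) := by
  rw [ff32sBeta_apply, ff32sBeta_apply, ← ff32sActHom_apply hV σ, map_sum]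
  refine Finset.sum_congr rfl fun v _ => ?_
  rw [ff32sShift, ff32sSum_mapDomain, ff32sSum_map]
  have : (fun g => ff32sActHom hV σ (actV g v)) = fun g => actV (σ * g) v :=
    funext fun g => by rw [ff32sActHom_apply, hV.mul]
  rw [this]

/-- the annihilator hypothesis gives `ker α ≤ ker β`. -/
theorem ff32s_ker [Fintype V]
    (hann : ∀ a : FfGal →₀ ℤ, (∀ y : Y, (a.sum fun g k => k • actY g y) = 0) →
      ∀ v : V, (a.sum fun g k => k • actV g v) = 0)
    (f : V → FfGal →₀ ℤ) (hf : ff32sAlpha actY f = 0) : ff32sBeta actV f = 0 := by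
  rw [ff32sBeta_apply]
  refine Finset.sum_eq_zero fun v _ => ?_
  rw [ff32sSum_apply]
  refine hann (f v) (fun y => ?_) v
  have := congrFun hf (v, y)
  rw [ff32sAlpha_apply, ff32sSum_apply] at this
  exact this

end Subquot

/-! ## the main theorem -/

/-- **(ALG)** `Ff32SubquotSpec` from the three transport statements of `FF/Spec.lean`. -/
theorem ff32s_main (ℓ : ℕ) (hsub : FfSubSpec ℓ) (hquot : FfQuotSpec ℓ) (hprod : FfProdSpec ℓ) :
    Ff32SubquotSpec ℓ := by
  classical
  intro Y V _ _ _ _ actY actV hY hV hann hord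
  haveI : Fintype V := Fintype.ofFinite V
  -- the power
  have hpow : FfModOrd ℓ (V × Y → Y) (fun σ x i => actY σ (x i)) :=
    ff32s_pow ℓ hsub hprod Y actY hY hord (V × Y)
  have hactP : FfAct (V × Y → Y) (fun σ x i => actY σ (x i)) := ff32s_act_pi hY _
  -- the stable subgroup
  set M₁ : AddSubgroup (V × Y → Y) := (ff32sAlpha (V := V) actY).range with hM₁
  have hstab : ∀ (σ : FfGal) (x : V × Y → Y), x ∈ M₁ → (fun i => actY σ (x i)) ∈ M₁ := by
    rintro σ _ ⟨f, rfl⟩
    exact ⟨ff32sShift σ f, funext fun i => (ff32s_alpha_shift hY σ f i).symm⟩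
  let act₁ : FfGal → ↥M₁ → ↥M₁ := fun σ x => ⟨fun i => actY σ (x.1 i), hstab σ x.1 x.2⟩
  have hact₁ : FfAct ↥M₁ act₁ :=
    ⟨fun x => Subtype.ext (hactP.one x.1), fun σ τ x => Subtype.ext (hactP.mul σ τ x.1),
      fun σ x y => Subtype.ext (hactP.add σ x.1 y.1)⟩
  have hord₁ : FfModOrd ℓ ↥M₁ act₁ :=
    hsub (V × Y → Y) ↥M₁ _ act₁ M₁.subtype Subtype.val_injective (fun σ x => rfl) hactP hpow
  -- the quotient map
  have hex : ∀ x : ↥M₁, ∃ f, ff32sAlpha actY f = x.1 := fun x => x.2
  choose F hF using hex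
  have hkey : ∀ (x : ↥M₁) (f : V → FfGal →₀ ℤ), ff32sAlpha actY f = x.1 →
      ff32sBeta actV (F x) = ff32sBeta actV f := by
    intro x f hf
    have h1 : ff32sAlpha actY (F x - f) = 0 := by
      rw [map_sub, hF, hf, sub_self]
    have h2 := ff32s_ker hann _ h1
    rw [map_sub, sub_eq_zero] at h2
    exact h2
  have hmem : ∀ f, ff32sAlpha (V := V) actY f ∈ M₁ := fun f => ⟨f, rfl⟩
  let q : ↥M₁ →+ V := AddMonoidHom.mk' (fun x => ff32sBeta actV (F x)) (by
    intro x y
    have h1 : ff32sAlpha actY (F x + F y) = (x + y).1 := by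
      rw [map_add, hF, hF]
      rfl
    change ff32sBeta actV (F (x + y)) = ff32sBeta actV (F x) + ff32sBeta actV (F y)
    rw [hkey (x + y) _ h1, map_add])
  have hqdef : ∀ x : ↥M₁, q x = ff32sBeta actV (F x) := fun x => rfl
  have hsurj : Function.Surjective q := by
    intro v
    refine ⟨⟨ff32sAlpha actY (Pi.single v (Finsupp.single 1 1)), hmem _⟩, ?_⟩
    rw [hqdef, hkey _ (Pi.single v (Finsupp.single 1 1)) rfl, ff32sBeta_apply,
      Finset.sum_eq_single v]
    · rw [Pi.single_eq_same, ff32sSum_single, one_smul, hV.one]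
    · intro v' _ hne
      rw [Pi.single_eq_of_ne hne, map_zero]
    · intro h
      exact absurd (Finset.mem_univ _) h
  have hequiv : ∀ (σ : FfGal) (x : ↥M₁), q (act₁ σ x) = actV σ (q x) := by
    intro σ x
    have h1 : ff32sAlpha actY (ff32sShift σ (F x)) = (act₁ σ x).1 := by
      funext i
      rw [← ff32s_alpha_shift hY σ (F x) i, hF]
    rw [hqdef, hqdef, hkey _ _ h1, ff32s_beta_shift hV]
  exact hquot ↥M₁ V act₁ actV q hsurj hequiv hact₁ hord₁

end Fermat.Agent.FF
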