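import Mathlib
import Fermat.Agent.FF.S32.Spec
import Fermat.Agent.FF.Top

/-!
# PROGRAM FF, part D (helper2): top assembly of S32, spec-first

`ff32_main`: `H.ρ.IsFlatAt p` from
* `FfLitSpec p` (order ⟹ Hopf literal),
* the global orders on `J₀(N)[p^m]` (S19 chain, `fftp_modOrd`),
* `Ff32SubquotSpec p` (annihilators ⟹ subquotient ⟹ transport of orders),
* `Ff32StarSpec p H` (the arithmetic core).
-/

set_option autoImplicit false
set_option linter.unusedSectionVars false
set_option linter.style.haveILetI false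

noncomputable section

namespace Fermat.Agent.FF

open CongruenceSubgroup ModularCurve Fermat.Agent.S16LB Fermat.Agent.G

/-! ### finiteness lemmas -/

/-- an ideal of finite index in a local ring contains a power of the maximal ideal. -/
theorem ff32_pow_le_of_finite {T : Type*} [CommRing T] [IsLocalRing T] [IsNoetherianRing T]
    (I : Ideal T) [Finite (T ⧸ I)] : ∃ n : ℕ, IsLocalRing.maximalIdeal T ^ n ≤ I := by
  by_cases hI : I = ⊤
  · exact ⟨0, by rw [hI]; exact le_top⟩
  haveI : Nontrivial (T ⧸ I) := Ideal.Quotient.nontrivial_iff.mpr hI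
  haveI : IsLocalRing (T ⧸ I) :=
    IsLocalRing.of_surjective' (Ideal.Quotient.mk I) Ideal.Quotient.mk_surjective
  haveI : IsArtinianRing (T ⧸ I) := inferInstance
  obtain ⟨n, hn⟩ := IsArtinianRing.isNilpotent_jacobson_bot (R := T ⧸ I)
  refine ⟨n, fun x hx => ?_⟩
  have h1 : (IsLocalRing.maximalIdeal T).map (Ideal.Quotient.mk I)
      ≤ Ideal.jacobson (⊥ : Ideal (T ⧸ I)) := by
    rw [IsLocalRing.jacobson_eq_maximalIdeal ⊥ bot_ne_top]
    exact ((IsLocalRing.local_hom_TFAE (Ideal.Quotient.mk I)).out 0 2).mp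
      (IsLocalHom.of_surjective _ Ideal.Quotient.mk_surjective)
  have h2 : Ideal.Quotient.mk I x ∈ ((IsLocalRing.maximalIdeal T).map (Ideal.Quotient.mk I)) ^ n := by
    rw [← Ideal.map_pow]
    exact Ideal.mem_map_of_mem _ hx
  have h3 := Ideal.pow_right_mono h1 n h2
  rw [hn] at h3
  exact Ideal.Quotient.eq_zero_iff_mem.mp ((Ideal.mem_bot).mp h3)

/-- `V / I V` is finite when `T / I` is. -/
theorem ff32_finite_quot {T : Type*} [CommRing T] (V : Type*) [AddCommGroup V] [Module T V]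
    [Module.Finite T V] (I : Ideal T) [Finite (T ⧸ I)] :
    Finite (V ⧸ (I • (⊤ : Submodule T V))) :=
  Module.finite_of_finite (T ⧸ I)

section Datum

variable {p : ℕ} {N : ℕ} [NeZero N] {S : Finset ℕ}
  {𝒪 : Type} [CommRing 𝒪] [IsDomain 𝒪] [IsDiscreteValuationRing 𝒪]
  [IsAdicComplete (IsLocalRing.maximalIdeal 𝒪) 𝒪]
  {θ : CuspForm.heckeAlgebra N 2 (↑S : Set ℕ) →+* IsLocalRing.ResidueField 𝒪}
  {T : Type} [CommRing T] [IsLocalRing T] [IsNoetherianRing T]
  [IsAdicComplete (IsLocalRing.maximalIdeal T) T] [Algebra 𝒪 T] [IsLocalHom (algebraMap 𝒪 T)]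
  [Module.Finite 𝒪 T] [Module.Free 𝒪 T]

/-- the residue field of `T` is finite. -/
theorem ff32_finite_residue [Finite (IsLocalRing.ResidueField 𝒪)]
    (H : CuspForm.HeckeGaloisRepDatum N (↑S : Set ℕ) 𝒪 θ T) :
    Finite (IsLocalRing.ResidueField T) := by
  have hs : Function.Surjective (IsLocalRing.ResidueField.map (algebraMap 𝒪 T)) := by
    intro x
    obtain ⟨a, ha⟩ := H.residue_surjective x
    exact ⟨IsLocalRing.residue 𝒪 a, by rw [IsLocalRing.ResidueField.map_residue]; exact ha⟩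
  exact Finite.of_surjective _ hs

/-- the level action is an action. -/
theorem ff32_act (ρ : GaloisRepAdic T) (I : Ideal T) :
    FfAct (ρ.V ⧸ (I • (⊤ : Submodule T ρ.V))) (fun σ => ρ.levelAction I σ) where
  one m := by
    obtain ⟨v, rfl⟩ := Submodule.Quotient.mk_surjective _ m
    show ρ.levelAction I 1 (Submodule.Quotient.mk v) = _
    unfold GaloisRepAdic.levelAction
    rw [Submodule.mapQ_apply, map_one, Module.End.one_apply]
  mul σ τ m := by
    obtain ⟨v, rfl⟩ := Submodule.Quotient.mk_surjective _ m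
    show ρ.levelAction I (σ * τ) (Submodule.Quotient.mk v)
      = ρ.levelAction I σ (ρ.levelAction I τ (Submodule.Quotient.mk v))
    unfold GaloisRepAdic.levelAction
    rw [Submodule.mapQ_apply, Submodule.mapQ_apply, Submodule.mapQ_apply, map_mul,
      Module.End.mul_apply]
  add σ m m' := map_add _ m m'

theorem ff32_levelAction_mk (ρ : GaloisRepAdic T) (I : Ideal T) (σ : FfGal) (v : ρ.V) :
    ρ.levelAction I σ (Submodule.Quotient.mk v) = Submodule.Quotient.mk (ρ.ρ σ v) := by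
  unfold GaloisRepAdic.levelAction
  rw [Submodule.mapQ_apply]

/-- **S32** from the leaves. -/
theorem ff32_main [Finite (IsLocalRing.ResidueField 𝒪)] (hp : p.Prime)
    (H : CuspForm.HeckeGaloisRepDatum N (↑S : Set ℕ) 𝒪 θ T)
    (hlit : FfLitSpec p) (hsq : Ff32SubquotSpec p)
    (hord : ∀ m : ℕ, FfModOrd p ↥(Submodule.torsionBy ℤ (JZero N) ((p : ℤ) ^ m))
      (ffTorsAct N ((p : ℤ) ^ m)))
    (hstar : Ff32StarSpec p H) : H.ρ.IsFlatAt p := by
  refine ⟨ff32_finite_residue H, fun I hI => ?_⟩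
  haveI : Finite (T ⧸ I) := hI
  obtain ⟨n, hn⟩ := ff32_pow_le_of_finite I
  obtain ⟨m, hm⟩ := hstar n
  haveI : Finite (H.ρ.V ⧸ (I • (⊤ : Submodule T H.ρ.V))) := ff32_finite_quot H.ρ.V I
  haveI : Fact p.Prime := ⟨hp⟩
  haveI : Finite ↥(Submodule.torsionBy ℤ (JZero N) ((p : ℤ) ^ m)) := fftp_finite N p m
  have hactY : FfAct ↥(Submodule.torsionBy ℤ (JZero N) ((p : ℤ) ^ m))
      (ffTorsAct N ((p : ℤ) ^ m)) := fftp_act N _
  have hann : ∀ a : FfGal →₀ ℤ,
      (∀ y : ↥(Submodule.torsionBy ℤ (JZero N) ((p : ℤ) ^ m)),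
        (a.sum fun g k => k • ffTorsAct N ((p : ℤ) ^ m) g y) = 0) →
      ∀ v : H.ρ.V ⧸ (I • (⊤ : Submodule T H.ρ.V)),
        (a.sum fun g k => k • (H.ρ.levelAction I g) v) = 0 := by
    intro a ha v
    obtain ⟨v, rfl⟩ := Submodule.Quotient.mk_surjective _ v
    have h1 : ∀ y : JZero N, p ^ m • y = 0 → (a.sum fun g k => k • (g • y)) = 0 := by
      intro y hy
      have hy' : y ∈ Submodule.torsionBy ℤ (JZero N) ((p : ℤ) ^ m) := by
        rw [Submodule.mem_torsionBy_iff, ← Nat.cast_pow, natCast_zsmul]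
        exact hy
      have h2 := congrArg (Subtype.val) (ha ⟨y, hy'⟩)
      rw [Finsupp.sum, AddSubmonoidClass.coe_finsetSum] at h2
      rw [Finsupp.sum]
      simpa using h2
    have h3 := hm a h1 v
    have h4 : (a.sum fun g k => k • (H.ρ.levelAction I g) (Submodule.Quotient.mk v))
        = Submodule.Quotient.mk (a.sum fun g k => k • H.ρ.ρ g v) := by
      rw [Finsupp.sum, Finsupp.sum]
      have h5 : (Submodule.Quotient.mk (∑ g ∈ a.support, a g • H.ρ.ρ g v) :
          H.ρ.V ⧸ (I • (⊤ : Submodule T H.ρ.V)))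
          = (I • (⊤ : Submodule T H.ρ.V)).mkQ (∑ g ∈ a.support, a g • H.ρ.ρ g v) := rfl
      rw [h5, map_sum]
      refine Finset.sum_congr rfl fun g _ => ?_
      rw [Submodule.mkQ_apply, ff32_levelAction_mk, Submodule.Quotient.mk_smul]
    rw [h4, Submodule.Quotient.mk_eq_zero]
    exact Submodule.smul_mono_left hn h3
  have hV : FfModOrd p (H.ρ.V ⧸ (I • (⊤ : Submodule T H.ρ.V)))
      (fun σ => H.ρ.levelAction I σ) :=
    hsq _ _ (ffTorsAct N ((p : ℤ) ^ m)) (fun σ => H.ρ.levelAction I σ) hactY (ff32_act H.ρ I)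
      hann (hord m)
  exact hlit _ (fun σ => H.ρ.levelAction I σ) (ff32_act H.ρ I) hV

end Datum

end Fermat.Agent.FF
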