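import Mathlib
import Fermat.Agent.FF.S32.Spec
import Fermat.Agent.G.Unr.Kernel

/-!
# PROGRAM FF, part D, leaf D4: the trace criterion (TR) and (NAC)

`ρ : GaloisRepAdic T` over a local ring `T` with absolutely irreducible residual representation.
In a basis `b` of `ρ.V`, `R g := toMatrix b b (ρ g)`; the `T`-span of `R(G)` is `M₂(T)`
(`ff32t_span`: Burnside over the residue field [`guna_resid_span`] + Nakayama
[`guna_span_top_of_residue`], as in `gun_eq_one_of_trace`).

* `ff32t_trace : Ff32TraceSpec ρ` : if `∑ a_g tr ρ(g h) ∈ 𝔞` for all `h`, then `X := ∑ a_g R g`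
  satisfies `tr (X Y) ∈ 𝔞` for all `Y ∈ M₂(T)`, so the entries of `X` lie in `𝔞`
  (`guna_trace_mul_single`) and `X` maps `V` into `𝔞 V`.
* `ff32t_nac : Ff32NacSpec ρ` : otherwise `tr ((X Y - Y X) Z) ∈ 𝔪` for all `X, Y, Z ∈ M₂(T)`
  (trilinearity + span), but `X = E₀₁`, `Y = E₁₀`, `Z = E₀₀` gives `1 ∈ 𝔪`.
-/

set_option autoImplicit false

noncomputable section

namespace Fermat.Agent.FF

open Fermat.Agent.G

/-! ### the representation in matrix form -/

/-- a basis of `ρ.V`, the matrix form `R` of `ρ` in it, and `span_T R(G) = M₂(T)`. -/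
theorem ff32t_span {T : Type} [CommRing T] [IsLocalRing T] (ρ : GaloisRepAdic T)
    (habs : ρ.residual.IsAbsolutelyIrreducible) :
    ∃ (b : Module.Basis (Fin 2) T ρ.V) (R : FfGal →* Matrix (Fin 2) (Fin 2) T),
      (∀ g, R g = LinearMap.toMatrix b b (ρ.ρ g)) ∧ Submodule.span T (Set.range R) = ⊤ := by
  classical
  let b : Module.Basis (Fin 2) T ρ.V := Module.finBasisOfFinrankEq T ρ.V ρ.finrank_eq
  let bk : Module.Basis (Fin 2) (IsLocalRing.ResidueField T) ρ.residual.V :=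
    Algebra.TensorProduct.basis (IsLocalRing.ResidueField T) b
  let R : FfGal →* Matrix (Fin 2) (Fin 2) T :=
    ((LinearMap.toMatrixAlgEquiv b : Module.End T ρ.V ≃ₐ[T] Matrix (Fin 2) (Fin 2) T) :
      Module.End T ρ.V →* Matrix (Fin 2) (Fin 2) T).comp ρ.ρ
  have hR : ∀ g, R g = LinearMap.toMatrix b b (ρ.ρ g) := fun g => rfl
  let r : FfGal →* Matrix (Fin 2) (Fin 2) (IsLocalRing.ResidueField T) :=
    ((RingHom.mapMatrix (algebraMap T (IsLocalRing.ResidueField T)) :
        Matrix (Fin 2) (Fin 2) T →+* Matrix (Fin 2) (Fin 2) (IsLocalRing.ResidueField T)) :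
      Matrix (Fin 2) (Fin 2) T →* Matrix (Fin 2) (Fin 2) (IsLocalRing.ResidueField T)).comp R
  have hr : ∀ g, r g = (R g).map (algebraMap T (IsLocalRing.ResidueField T)) := fun g => rfl
  have hr' : ∀ g, r g = LinearMap.toMatrix bk bk (ρ.residual.ρ g) := by
    intro g
    rw [hr, hR]
    exact (LinearMap.toMatrix_baseChange (IsLocalRing.ResidueField T) (ρ.ρ g) b b).symm
  have hspan_k : Submodule.span (IsLocalRing.ResidueField T) (Set.range r) = ⊤ :=
    guna_resid_span ρ.residual habs bk r hr'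
  refine ⟨b, R, hR, ?_⟩
  apply guna_span_top_of_residue
  have e : ((fun X : Matrix (Fin 2) (Fin 2) T =>
      X.map (algebraMap T (IsLocalRing.ResidueField T))) '' Set.range R) = Set.range r := by
    ext X
    constructor
    · rintro ⟨_, ⟨g, rfl⟩, rfl⟩
      exact ⟨g, rfl⟩
    · rintro ⟨g, rfl⟩
      exact ⟨R g, ⟨g, rfl⟩, rfl⟩
  rw [e]
  exact hspan_k

/-! ### (TR) -/

/-- a vector all of whose coordinates lie in `𝔞` lies in `𝔞 V`. -/
theorem ff32t_mem_smul_top {T : Type*} [CommRing T] {V : Type*} [AddCommGroup V] [Module T V]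
    {ι : Type*} [Fintype ι] (b : Module.Basis ι T V) (𝔞 : Ideal T) (w : V)
    (hw : ∀ i, b.repr w i ∈ 𝔞) : w ∈ 𝔞 • (⊤ : Submodule T V) := by
  rw [← b.sum_repr w]
  exact Submodule.sum_mem _ fun i _ => Submodule.smul_mem_smul (hw i) Submodule.mem_top

/-- **(TR)** the trace criterion. -/
theorem ff32t_trace {T : Type} [CommRing T] [IsLocalRing T] (ρ : GaloisRepAdic T)
    (habs : ρ.residual.IsAbsolutelyIrreducible) : Ff32TraceSpec ρ := by
  classical
  obtain ⟨b, R, hR, hspan⟩ := ff32t_span ρ habs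
  intro 𝔞 a ha v
  -- the endomorphism `E = ∑ a_g ρ(g)` and its matrix `X`
  set E : Module.End T ρ.V := ∑ g ∈ a.support, a g • ρ.ρ g with hE
  set X : Matrix (Fin 2) (Fin 2) T := ∑ g ∈ a.support, a g • R g with hX
  have hEX : LinearMap.toMatrix b b E = X := by
    rw [hE, hX, map_sum]
    refine Finset.sum_congr rfl fun g _ => ?_
    rw [map_zsmul, hR]
  have hEv : (a.sum fun g k => k • ρ.ρ g v) = E v := by
    rw [Finsupp.sum, hE, LinearMap.sum_apply]
    refine Finset.sum_congr rfl fun g _ => ?_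
    rw [LinearMap.smul_apply]
  -- `tr (X R(h)) ∈ 𝔞`
  have hXg : ∀ h, (X * R h).trace ∈ 𝔞 := by
    intro h
    have h1 := ha h
    rw [Finsupp.sum] at h1
    have h2 : (X * R h).trace = ∑ g ∈ a.support, a g • LinearMap.trace T ρ.V (ρ.ρ (g * h)) := by
      rw [hX, Finset.sum_mul, Matrix.trace_sum]
      refine Finset.sum_congr rfl fun g _ => ?_
      rw [Matrix.smul_mul, Matrix.trace_smul, ← map_mul, hR,
        ← LinearMap.trace_eq_matrix_trace T b]
    rw [h2]
    exact h1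
  have hXY : ∀ Y : Matrix (Fin 2) (Fin 2) T, (X * Y).trace ∈ 𝔞 := by
    intro Y
    have hY : Y ∈ Submodule.span T (Set.range R) := by rw [hspan]; trivial
    induction hY using Submodule.span_induction with
    | mem Y hY =>
      obtain ⟨g, rfl⟩ := hY
      exact hXg g
    | zero =>
      rw [mul_zero, Matrix.trace_zero]
      exact 𝔞.zero_mem
    | add Y Z _ _ hY hZ =>
      rw [mul_add, Matrix.trace_add]
      exact 𝔞.add_mem hY hZ
    | smul c Y _ hY =>
      rw [Matrix.mul_smul, Matrix.trace_smul, smul_eq_mul]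
      exact 𝔞.mul_mem_left c hY
  have hent : ∀ i j, X i j ∈ 𝔞 := fun i j => by
    rw [← guna_trace_mul_single X i j]
    exact hXY _
  -- conclusion
  rw [hEv]
  refine ff32t_mem_smul_top b 𝔞 (E v) fun i => ?_
  have h3 := congrFun (LinearMap.toMatrix_mulVec_repr b b E v) i
  rw [← h3, hEX, Matrix.mulVec, dotProduct]
  exact 𝔞.sum_mem fun j _ => 𝔞.mul_mem_right _ (hent i j)

/-! ### (NAC) -/

section Nac

variable {T : Type*} [CommRing T]

/-- the trilinear form `tr ((X Y - Y X) Z)`. -/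
def ff32tForm (X Y Z : Matrix (Fin 2) (Fin 2) T) : T := ((X * Y - Y * X) * Z).trace

theorem ff32tForm_add_right (X Y Z Z' : Matrix (Fin 2) (Fin 2) T) :
    ff32tForm X Y (Z + Z') = ff32tForm X Y Z + ff32tForm X Y Z' := by
  unfold ff32tForm
  rw [mul_add, Matrix.trace_add]

theorem ff32tForm_smul_right (c : T) (X Y Z : Matrix (Fin 2) (Fin 2) T) :
    ff32tForm X Y (c • Z) = c * ff32tForm X Y Z := by
  unfold ff32tForm
  rw [Matrix.mul_smul, Matrix.trace_smul, smul_eq_mul]

theorem ff32tForm_add_mid (X Y Y' Z : Matrix (Fin 2) (Fin 2) T) :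
    ff32tForm X (Y + Y') Z = ff32tForm X Y Z + ff32tForm X Y' Z := by
  unfold ff32tForm
  rw [← Matrix.trace_add, ← add_mul]
  congr 2
  noncomm_ring

theorem ff32tForm_smul_mid (c : T) (X Y Z : Matrix (Fin 2) (Fin 2) T) :
    ff32tForm X (c • Y) Z = c * ff32tForm X Y Z := by
  unfold ff32tForm
  rw [Matrix.mul_smul, Matrix.smul_mul, ← smul_sub, Matrix.smul_mul, Matrix.trace_smul,
    smul_eq_mul]

theorem ff32tForm_add_left (X X' Y Z : Matrix (Fin 2) (Fin 2) T) :
    ff32tForm (X + X') Y Z = ff32tForm X Y Z + ff32tForm X' Y Z := by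
  unfold ff32tForm
  rw [← Matrix.trace_add, ← add_mul]
  congr 2
  noncomm_ring

theorem ff32tForm_smul_left (c : T) (X Y Z : Matrix (Fin 2) (Fin 2) T) :
    ff32tForm (c • X) Y Z = c * ff32tForm X Y Z := by
  unfold ff32tForm
  rw [Matrix.mul_smul, Matrix.smul_mul, ← smul_sub, Matrix.smul_mul, Matrix.trace_smul,
    smul_eq_mul]

theorem ff32tForm_zero_right (X Y : Matrix (Fin 2) (Fin 2) T) : ff32tForm X Y 0 = 0 := by
  unfold ff32tForm
  rw [mul_zero, Matrix.trace_zero]

theorem ff32tForm_zero_mid (X Z : Matrix (Fin 2) (Fin 2) T) : ff32tForm X 0 Z = 0 := by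
  unfold ff32tForm
  rw [mul_zero, zero_mul, sub_zero, zero_mul, Matrix.trace_zero]

theorem ff32tForm_zero_left (Y Z : Matrix (Fin 2) (Fin 2) T) : ff32tForm 0 Y Z = 0 := by
  unfold ff32tForm
  rw [mul_zero, zero_mul, sub_zero, zero_mul, Matrix.trace_zero]

/-- the value `1` of the form at `(E₀₁, E₁₀, E₀₀)`. -/
theorem ff32tForm_single :
    ff32tForm (Matrix.single 0 1 (1 : T)) (Matrix.single 1 0 (1 : T))
      (Matrix.single 0 0 (1 : T)) = 1 := by
  unfold ff32tForm
  rw [Matrix.trace_fin_two]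
  simp [Matrix.mul_apply, Fin.sum_univ_two, Matrix.single, Matrix.sub_apply]

/-- a trilinear form with values in an ideal on a spanning set has values in the ideal. -/
theorem ff32tForm_mem (𝔞 : Ideal T) (S : Set (Matrix (Fin 2) (Fin 2) T))
    (hS : Submodule.span T S = ⊤)
    (h : ∀ X ∈ S, ∀ Y ∈ S, ∀ Z ∈ S, ff32tForm X Y Z ∈ 𝔞) (X Y Z : Matrix (Fin 2) (Fin 2) T) :
    ff32tForm X Y Z ∈ 𝔞 := by
  have hall : ∀ W : Matrix (Fin 2) (Fin 2) T, W ∈ Submodule.span T S := fun W => by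
    rw [hS]; trivial
  -- stage 1: the last variable
  have h1 : ∀ X ∈ S, ∀ Y ∈ S, ∀ Z, ff32tForm X Y Z ∈ 𝔞 := by
    intro X hX Y hY Z
    induction hall Z using Submodule.span_induction with
    | mem Z hZ => exact h X hX Y hY Z hZ
    | zero => rw [ff32tForm_zero_right]; exact 𝔞.zero_mem
    | add Z Z' _ _ hZ hZ' => rw [ff32tForm_add_right]; exact 𝔞.add_mem hZ hZ'
    | smul c Z _ hZ => rw [ff32tForm_smul_right]; exact 𝔞.mul_mem_left c hZ
  -- stage 2: the middle variable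
  have h2 : ∀ X ∈ S, ∀ Y Z, ff32tForm X Y Z ∈ 𝔞 := by
    intro X hX Y Z
    induction hall Y using Submodule.span_induction with
    | mem Y hY => exact h1 X hX Y hY Z
    | zero => rw [ff32tForm_zero_mid]; exact 𝔞.zero_mem
    | add Y Y' _ _ hY hY' => rw [ff32tForm_add_mid]; exact 𝔞.add_mem hY hY'
    | smul c Y _ hY => rw [ff32tForm_smul_mid]; exact 𝔞.mul_mem_left c hY
  -- stage 3: the first variable
  induction hall X using Submodule.span_induction with
  | mem X hX => exact h2 X hX Y Z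
  | zero => rw [ff32tForm_zero_left]; exact 𝔞.zero_mem
  | add X X' _ _ hX hX' => rw [ff32tForm_add_left]; exact 𝔞.add_mem hX hX'
  | smul c X _ hX => rw [ff32tForm_smul_left]; exact 𝔞.mul_mem_left c hX

end Nac

/-- **(NAC)** some `t(g₁ g₂ g₃) - t(g₂ g₁ g₃)` is a unit. -/
theorem ff32t_nac {T : Type} [CommRing T] [IsLocalRing T] (ρ : GaloisRepAdic T)
    (habs : ρ.residual.IsAbsolutelyIrreducible) : Ff32NacSpec ρ := by
  classical
  obtain ⟨b, R, hR, hspan⟩ := ff32t_span ρ habs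
  by_contra hcon
  unfold Ff32NacSpec at hcon
  push Not at hcon
  have hmem : ∀ X ∈ Set.range R, ∀ Y ∈ Set.range R, ∀ Z ∈ Set.range R,
      ff32tForm X Y Z ∈ IsLocalRing.maximalIdeal T := by
    rintro _ ⟨g₁, rfl⟩ _ ⟨g₂, rfl⟩ _ ⟨g₃, rfl⟩
    have h1 : ff32tForm (R g₁) (R g₂) (R g₃)
        = LinearMap.trace T ρ.V (ρ.ρ (g₁ * g₂ * g₃))
          - LinearMap.trace T ρ.V (ρ.ρ (g₂ * g₁ * g₃)) := by
      unfold ff32tForm
      rw [sub_mul, Matrix.trace_sub, ← map_mul, ← map_mul, ← map_mul, ← map_mul, hR, hR,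
        ← LinearMap.trace_eq_matrix_trace T b, ← LinearMap.trace_eq_matrix_trace T b]
    rw [h1]
    exact (IsLocalRing.mem_maximalIdeal _).mpr (hcon g₁ g₂ g₃)
  have h2 := ff32tForm_mem (IsLocalRing.maximalIdeal T) (Set.range R) hspan hmem
    (Matrix.single 0 1 (1 : T)) (Matrix.single 1 0 (1 : T)) (Matrix.single 0 0 (1 : T))
  rw [ff32tForm_single] at h2
  exact (IsLocalRing.maximalIdeal.isMaximal T).ne_top ((Ideal.eq_top_iff_one _).mpr h2)

end Fermat.Agent.FF
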