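import Mathlib
import Fermat.Agent.FF.S32.Top
import Fermat.Agent.FF.S32.Star
import Fermat.Agent.FF.S32.Subquot
import Fermat.Agent.FF.S32.Hecke
import Fermat.Agent.FF.S32.Trace
import Fermat.Agent.FF.S32.Frob
import Fermat.Agent.FF.Desc.Top
import Fermat.Agent.FF.Lit
import Fermat.Agent.FF.Order.SubQuot
import Fermat.Agent.FF.LevelSpec

/-!
# PROGRAM FF, part D (helper2): S32 with every leaf plugged except the core `FfCoreAll p`
(the last open theorem of the S19 chain).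
-/

set_option autoImplicit false
set_option linter.unusedSectionVars false
set_option linter.style.haveILetI false

noncomputable section

namespace Fermat.Agent.FF

open CongruenceSubgroup ModularCurve Fermat.Agent.S16LB Fermat.Agent.G

variable {p : ℕ} {N : ℕ} [NeZero N] {S : Finset ℕ}
  {𝒪 : Type} [CommRing 𝒪] [IsDomain 𝒪] [IsDiscreteValuationRing 𝒪]
  [IsAdicComplete (IsLocalRing.maximalIdeal 𝒪) 𝒪]
  {θ : CuspForm.heckeAlgebra N 2 (↑S : Set ℕ) →+* IsLocalRing.ResidueField 𝒪}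
  {T : Type} [CommRing T] [IsLocalRing T] [IsNoetherianRing T]
  [IsAdicComplete (IsLocalRing.maximalIdeal T) T] [Algebra 𝒪 T] [IsLocalHom (algebraMap 𝒪 T)]
  [Module.Finite 𝒪 T] [Module.Free 𝒪 T]

/-- the global orders on `J₀(N)[p^m]` from the S19 chain. -/
theorem ff32p_ord (hp : p.Prime) (hpN : ¬ p ∣ N) (hDesc : FfDescentSpec2 p) (hCore : FfCoreAll p)
    (m : ℕ) :
    FfModOrd p ↥(Submodule.torsionBy ℤ (JZero N) ((p : ℤ) ^ m)) (ffTorsAct N ((p : ℤ) ^ m)) := by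
  haveI : Fact p.Prime := ⟨hp⟩
  refine fftp_modOrd p hDesc hCore (ffsq_sub p) (ffsq_quot p) N hpN m (fun h5 hdvd => ?_)
  obtain ⟨h1, -, -, s, hs⟩ := fflq_spec_small N h5 hpN hdvd m
  exact ⟨h1, s, hs⟩

/-- S32 with the open leaves as hypotheses. -/
theorem ff32p_main [Finite (IsLocalRing.ResidueField 𝒪)] (hp : p.Prime)
    (hp𝒪 : (p : 𝒪) ∈ IsLocalRing.maximalIdeal 𝒪) (hpN : ¬ p ∣ N) (hpS : p ∈ S)
    (hNS : ∀ q : ℕ, q.Prime → q ∣ N → q ∈ S)
    (H : CuspForm.HeckeGaloisRepDatum N (↑S : Set ℕ) 𝒪 θ T) (hCore : FfCoreAll p) :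
    H.ρ.IsFlatAt p := by
  haveI : Fact p.Prime := ⟨hp⟩
  exact ff32_main hp H (ffho_lit p) (ff32s_main p (ffsq_sub p) (ffsq_quot p) (ffsq_prod p))
    (ff32p_ord hp hpN (ffds_spec p) hCore)
    (ff32_star hp hp𝒪 H (ff32h_lattice N (↑S : Set ℕ) p hp
      (fun ℓ _ hℓS h => hℓS (h ▸ Finset.mem_coe.mpr hpS)))
      (ff32f_main hp hp𝒪 hpS hNS H)
      (ff32t_trace H.ρ H.residual_absIrr) (ff32t_nac H.ρ H.residual_absIrr))

end Fermat.Agent.FF
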